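import Fermat.Agent.S40x.R2.Slope.SlopeAbs

/-!
# P-S44, block C3, leaf C3-SLOPE (helper41): the slope function of a side datum

Mathlib only.  A **side datum** of a valued field `(E, v)` with constants `ιL : L →+* E` is a
subring `R` of the valuation ring together with an "order function" `o` on the units of `v` lying
in `R` (in the application `R` is a regular node ring, `𝔪_v ∩ R = u R`, `R / u R` is a discrete
valuation ring and `o r` is the order of `r mod u`), such that

* `dense`: the residue field of `v` is the fraction field of the image of `R`;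
* `scal`: every non-zero element of `E` is a constant times a unit of `v`;
* `const`: the constants have order `0`.

`SideDatum.exists_slope` / `SideDatum.slope_unique`: there is exactly one slope function
(`IsSlope`) which restricts to `o` on the units of `R`.  Consequences: the slope functions
downstairs (`F`, `v_∞`, `R_s`) and upstairs (`F_L`, `W*`, `R*_s`) are compatible
(`SideDatum.restrict_eq`).
-/

set_option autoImplicit false

namespace Fermat.Agent.S40x.R2.Slope

variable {L E : Type*} [Field L] [Field E]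
  {Γ₀ : Type*} [LinearOrderedCommGroupWithZero Γ₀]

theorem val_eq_one_of_sub_lt (v : Valuation E Γ₀) {a b : E} (hb : v b = 1) (h : v (a - b) < 1) :
    v a = 1 := by
  have : a = b + (a - b) := by ring
  rw [this, Valuation.map_add_eq_of_lt_left v (by rw [hb]; exact h), hb]

theorem ne_zero_of_val_eq_one (v : Valuation E Γ₀) {a : E} (ha : v a = 1) : a ≠ 0 := by
  rintro rfl
  rw [map_zero] at ha
  exact zero_ne_one ha

/-- axiomatic side datum: see the file header -/
structure SideDatum (ιL : L →+* E) (v : Valuation E Γ₀) (R : Subring E) (o : E → ℤ) : Prop where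
  o_mul : ∀ r ∈ R, ∀ r' ∈ R, v r = 1 → v r' = 1 → o (r * r') = o r + o r'
  o_congr : ∀ r ∈ R, ∀ r' ∈ R, v r = 1 → v (r - r') < 1 → o r = o r'
  dense : ∀ x : E, v x = 1 → ∃ r1 ∈ R, ∃ r2 ∈ R, v r1 = 1 ∧ v r2 = 1 ∧ v (x * r2 - r1) < 1
  scal : ∀ x : E, x ≠ 0 → ∃ c : L, c ≠ 0 ∧ v (ιL c * x) = 1
  const : ∀ c : L, v (ιL c) = 1 → ∀ r1 ∈ R, ∀ r2 ∈ R, v r1 = 1 → v r2 = 1 →
    v (ιL c * r2 - r1) < 1 → o r1 = o r2

/-- `x` is represented by the constant `c` and the fraction `r1 / r2` -/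
def IsRep (ιL : L →+* E) (v : Valuation E Γ₀) (R : Subring E) (x : E) (c : L) (r1 r2 : E) : Prop :=
  c ≠ 0 ∧ r1 ∈ R ∧ r2 ∈ R ∧ v r1 = 1 ∧ v r2 = 1 ∧ v (ιL c * x * r2 - r1) < 1

section RepLemmas

variable {ιL : L →+* E} {v : Valuation E Γ₀} {R : Subring E}

theorem IsRep.val_eq_one {x : E} {c : L} {r1 r2 : E} (h : IsRep ιL v R x c r1 r2) :
    v (ιL c * x) = 1 := by
  obtain ⟨-, -, -, h1, h2, h3⟩ := h
  have := val_eq_one_of_sub_lt v h1 h3
  rwa [map_mul, h2, mul_one] at this

theorem IsRep.ne_zero {x : E} {c : L} {r1 r2 : E} (h : IsRep ιL v R x c r1 r2) : x ≠ 0 := by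
  have := ne_zero_of_val_eq_one v h.val_eq_one
  exact right_ne_zero_of_mul this

end RepLemmas

namespace SideDatum

variable {ιL : L →+* E} {v : Valuation E Γ₀} {R : Subring E} {o : E → ℤ}

theorem o_one (D : SideDatum ιL v R o) : o 1 = 0 := by
  have := D.o_mul 1 R.one_mem 1 R.one_mem (map_one v) (map_one v)
  rw [mul_one] at this
  omega

theorem exists_rep (D : SideDatum ιL v R o) {x : E} (hx : x ≠ 0) :
    ∃ c r1 r2, IsRep ιL v R x c r1 r2 := by
  obtain ⟨c, hc, hcx⟩ := D.scal x hx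
  obtain ⟨r1, hr1, r2, hr2, h1, h2, h3⟩ := D.dense _ hcx
  exact ⟨c, r1, r2, hc, hr1, hr2, h1, h2, h3⟩

/-- the value `o r1 - o r2` does not depend on the representation -/
theorem rep_unique (D : SideDatum ιL v R o) {x : E} {c c' : L} {r1 r2 r1' r2' : E}
    (h : IsRep ιL v R x c r1 r2) (h' : IsRep ιL v R x c' r1' r2') :
    o r1 - o r2 = o r1' - o r2' := by
  have hy := h.val_eq_one
  have hy' := h'.val_eq_one
  have hx := h.ne_zero
  obtain ⟨hc, hr1, hr2, h1, h2, h3⟩ := h
  obtain ⟨hc', hr1', hr2', h1', h2', h3'⟩ := h'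
  have hιc : ιL c ≠ 0 := (map_ne_zero ιL).mpr hc
  -- `d = c' / c` is a unit constant
  have hd : v (ιL (c' / c)) = 1 := by
    have : ιL (c' / c) = (ιL c' * x) / (ιL c * x) := by
      rw [map_div₀]
      field_simp
    rw [this, map_div₀, hy, hy', div_one]
  have key : v (ιL (c' / c) * (r1 * r2') - r1' * r2) < 1 := by
    have e : ιL (c' / c) * (r1 * r2') - r1' * r2 =
        ιL (c' / c) * r2' * (r1 - ιL c * x * r2) + (ιL c' * x * r2' - r1') * r2 := by
      rw [map_div₀]
      field_simp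
      ring
    rw [e]
    refine Valuation.map_add_lt v ?_ ?_
    · rw [map_mul, map_mul, hd, h2', one_mul, one_mul, Valuation.map_sub_swap]
      exact h3
    · rw [map_mul, h2, mul_one]
      exact h3'
  have := D.const (c' / c) hd (r1' * r2) (R.mul_mem hr1' hr2) (r1 * r2') (R.mul_mem hr1 hr2')
    (by rw [map_mul, h1', h2, one_mul]) (by rw [map_mul, h1, h2', one_mul]) key
  rw [D.o_mul r1' hr1' r2 hr2 h1' h2, D.o_mul r1 hr1 r2' hr2' h1 h2'] at this
  omega

open Classical in
/-- the slope function of a side datum (junk value `0` at `0`) -/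
noncomputable def slopeFn (D : SideDatum ιL v R o) (x : E) : ℤ :=
  if hx : x = 0 then 0 else
    o (D.exists_rep hx).choose_spec.choose - o (D.exists_rep hx).choose_spec.choose_spec.choose

theorem slopeFn_eq (D : SideDatum ιL v R o) {x : E} {c : L} {r1 r2 : E}
    (h : IsRep ιL v R x c r1 r2) : D.slopeFn x = o r1 - o r2 := by
  have hx := h.ne_zero
  rw [slopeFn, dif_neg hx]
  exact D.rep_unique (D.exists_rep hx).choose_spec.choose_spec.choose_spec h

theorem isRep_mul {x x' : E} {c c' : L} {r1 r2 r1' r2' : E}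
    (h : IsRep ιL v R x c r1 r2) (h' : IsRep ιL v R x' c' r1' r2') :
    IsRep ιL v R (x * x') (c * c') (r1 * r1') (r2 * r2') := by
  have hy' := h'.val_eq_one
  obtain ⟨hc, hr1, hr2, h1, h2, h3⟩ := h
  obtain ⟨hc', hr1', hr2', h1', h2', h3'⟩ := h'
  refine ⟨mul_ne_zero hc hc', R.mul_mem hr1 hr1', R.mul_mem hr2 hr2', by rw [map_mul, h1, h1',
    one_mul], by rw [map_mul, h2, h2', one_mul], ?_⟩
  have e : ιL (c * c') * (x * x') * (r2 * r2') - r1 * r1' =
      (ιL c * x * r2 - r1) * (ιL c' * x' * r2') + r1 * (ιL c' * x' * r2' - r1') := by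
    rw [map_mul]
    ring
  rw [e]
  refine Valuation.map_add_lt v ?_ ?_
  · rw [map_mul, map_mul v (ιL c' * x') r2', hy', h2', one_mul, mul_one]
    exact h3
  · rw [map_mul, h1, one_mul]
    exact h3'

/-- **existence**: the slope function of a side datum -/
theorem isSlope_slopeFn (D : SideDatum ιL v R o) : IsSlope ιL v D.slopeFn where
  map_mul := fun {f g} hf hg => by
    obtain ⟨c, r1, r2, h⟩ := D.exists_rep hf
    obtain ⟨c', r1', r2', h'⟩ := D.exists_rep hg
    rw [D.slopeFn_eq h, D.slopeFn_eq h', D.slopeFn_eq (isRep_mul h h'),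
      D.o_mul r1 h.2.1 r1' h'.2.1 h.2.2.2.1 h'.2.2.2.1,
      D.o_mul r2 h.2.2.1 r2' h'.2.2.1 h.2.2.2.2.1 h'.2.2.2.2.1]
    ring
  map_const := fun c => by
    by_cases hc : c = 0
    · rw [hc, map_zero, slopeFn, dif_pos rfl]
    · have hιc : ιL c ≠ 0 := (map_ne_zero ιL).mpr hc
      have h : IsRep ιL v R (ιL c) c⁻¹ 1 1 := by
        refine ⟨inv_ne_zero hc, R.one_mem, R.one_mem, map_one v, map_one v, ?_⟩
        rw [map_inv₀, inv_mul_cancel₀ hιc, mul_one, sub_self, map_zero]
        exact zero_lt_one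
      rw [D.slopeFn_eq h, sub_self]
  map_near_one := fun {f} hf => by
    have h : IsRep ιL v R f 1 1 1 := by
      refine ⟨one_ne_zero, R.one_mem, R.one_mem, map_one v, map_one v, ?_⟩
      rw [map_one, one_mul, mul_one]
      exact hf
    rw [D.slopeFn_eq h, sub_self]

/-- the slope function restricts to `o` on the units of `R` -/
theorem slopeFn_of_mem (D : SideDatum ιL v R o) {r : E} (hr : r ∈ R) (h1 : v r = 1) :
    D.slopeFn r = o r := by
  have h : IsRep ιL v R r 1 r 1 := by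
    refine ⟨one_ne_zero, hr, R.one_mem, h1, map_one v, ?_⟩
    rw [map_one, one_mul, mul_one, sub_self, map_zero]
    exact zero_lt_one
  rw [D.slopeFn_eq h, D.o_one, sub_zero]

/-- **uniqueness**: a slope function is determined by its values on the units of `R` -/
theorem slope_unique (D : SideDatum ιL v R o) {sl : E → ℤ} (hsl : IsSlope ιL v sl)
    (hR : ∀ r ∈ R, v r = 1 → sl r = o r) {x : E} (hx : x ≠ 0) : sl x = D.slopeFn x := by
  obtain ⟨c, r1, r2, h⟩ := D.exists_rep hx
  rw [D.slopeFn_eq h]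
  have hy := h.val_eq_one
  obtain ⟨hc, hr1, hr2, h1, h2, h3⟩ := h
  have hr20 : r2 ≠ 0 := ne_zero_of_val_eq_one v h2
  have hιc : ιL c ≠ 0 := (map_ne_zero ιL).mpr hc
  have h4 : v (ιL c * x * r2) = 1 := by rw [map_mul, hy, h2, one_mul]
  have := hsl.congr h4 h3
  rw [hsl.map_mul (mul_ne_zero hιc hx) hr20, hsl.map_const_mul hc hx, hR r1 hr1 h1,
    hR r2 hr2 h2] at this
  omega

theorem exists_slope (D : SideDatum ιL v R o) :
    ∃ sl : E → ℤ, IsSlope ιL v sl ∧ ∀ r ∈ R, v r = 1 → sl r = o r :=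
  ⟨D.slopeFn, D.isSlope_slopeFn, fun _ hr h1 => D.slopeFn_of_mem hr h1⟩

/-- units of `R` have slope `0` as soon as `o` is non-negative on the units of `v` in `R` -/
theorem slope_unit (D : SideDatum ιL v R o) (hle : ∀ r ∈ R, v r ≤ 1)
    (hpos : ∀ r ∈ R, v r = 1 → 0 ≤ o r) {sl : E → ℤ}
    (hR : ∀ r ∈ R, v r = 1 → sl r = o r) {ε ε' : E} (hε : ε ∈ R) (hε' : ε' ∈ R)
    (h : ε * ε' = 1) : sl ε = 0 := by
  have h1 : v ε = 1 := by
    have hv : v ε * v ε' = 1 := by rw [← map_mul, h, map_one]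
    refine le_antisymm (hle ε hε) ?_
    by_contra hlt
    rw [not_le] at hlt
    have : v ε * v ε' < 1 := by
      calc v ε * v ε' ≤ v ε * 1 := mul_le_mul_right (hle ε' hε') _
        _ = v ε := mul_one _
        _ < 1 := hlt
    rw [hv] at this
    exact lt_irrefl _ this
  have h1' : v ε' = 1 := by
    have hv : v ε * v ε' = 1 := by rw [← map_mul, h, map_one]
    rwa [h1, one_mul] at hv
  have hm := D.o_mul ε hε ε' hε' h1 h1'
  rw [h, D.o_one] at hm
  have := hpos ε hε h1
  have := hpos ε' hε' h1'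
  rw [hR ε hε h1]
  omega

end SideDatum

/-- **compatibility of the slopes downstairs and upstairs.**  `ιF : F → E` a field embedding,
side data `(F, v.comap ιF, R₀, o₀)` and `(E, v, R, o)` with `ιF R₀ ⊆ R` and `o ∘ ιF = o₀` on the
units of `R₀`: the slope function upstairs restricts to the slope function downstairs. -/
theorem SideDatum.restrict_eq {F : Type*} [Field F] {ιL : L →+* E} {v : Valuation E Γ₀}
    {R : Subring E} {o : E → ℤ} (ιF : F →+* E) (ιL' : L →+* F) (hι : ∀ c, ιF (ιL' c) = ιL c)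
    {R₀ : Subring F} {o₀ : F → ℤ} (D₀ : SideDatum ιL' (v.comap ιF) R₀ o₀)
    (hRR : ∀ r ∈ R₀, ιF r ∈ R) (hoo : ∀ r ∈ R₀, v (ιF r) = 1 → o (ιF r) = o₀ r)
    {sl : E → ℤ} (hsl : IsSlope ιL v sl) (hR : ∀ r ∈ R, v r = 1 → sl r = o r)
    {sl₀ : F → ℤ} (hsl₀ : IsSlope ιL' (v.comap ιF) sl₀)
    (hR₀ : ∀ r ∈ R₀, v (ιF r) = 1 → sl₀ r = o₀ r) {y : F} (hy : y ≠ 0) :
    sl (ιF y) = sl₀ y := by
  have h1 := D₀.slope_unique (hsl.comp ιF ιL' hι)
    (fun r hr h1 => by rw [hR _ (hRR r hr) h1, hoo r hr h1]) hy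
  have h2 := D₀.slope_unique hsl₀ hR₀ hy
  rw [h2, ← h1]

end Fermat.Agent.S40x.R2.Slope
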