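import Fermat.Agent.S40x.Node.NodeDatum

/-!
# P-S44, block C3, leaf C3-SLOPE (helper41): the order function of a node (or smooth-point) ring

Mathlib + the landed `Node/NodeDatum` (helper50) only.  `R` a Noetherian local domain with maximal
ideal `(z, z')`, `z` prime, `z ∤ z'` (a node ring with `(z, z') = (u, u')` or `(u', u)`; a
smooth-point ring with `(z, z') = (p, t)`), so that `R ⧸ (z)` is a discrete valuation ring with
uniformiser the class of `z'`.

* `ordQ z z' r`: the order of `r` modulo `z` (multiplicity of the class of `z'`), with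
  `ordQ_mul`, `ordQ_congr`, `ordQ_self`, `ordQ_unit`, and the normal form
  `exists_unit_mul_pow`: `r = ε z'^(ordQ r) + z r''`, `ε` a unit, for `z ∤ r`;
* `ordQ_map`: a local homomorphism of such rings mapping `z ↦ z`, `z' ↦ z'` preserves the order
  (`e = 1`: the etale lift `R_s → R*_s`);
* for an injective `φ : R →+* E` into a valued field with `v ∘ φ ≤ 1`, `v (φ z) < 1`,
  `v (φ z') = 1`: `val_lt_one_iff` (`v (φ r) < 1 ↔ z ∣ r`), and the function
  `nodeOrd φ z z' : E → ℤ` on `φ R` with `nodeOrd_apply`, `nodeOrd_mul`, `nodeOrd_congr`,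
  `nodeOrd_nonneg`, `nodeOrd_z'`: exactly the hypotheses (o1), (o2), `hnn`, `hou'` on the
  order function of a side datum (`Slope/SideSlope`, `SlopeB/Side`).
-/

set_option autoImplicit false
set_option linter.unusedSectionVars false
set_option linter.style.haveILetI false

namespace Fermat.Agent.S40x.R2.Slope

open IsLocalRing Fermat.Agent.S40x.Node

section Ord

variable {R : Type*} [CommRing R]

/-- the order of `r` modulo `z`: the multiplicity of the class of `z'` in the class of `r` -/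
noncomputable def ordQ (z z' r : R) : ℕ :=
  multiplicity (Ideal.Quotient.mk (Ideal.span {z}) z') (Ideal.Quotient.mk (Ideal.span {z}) r)

theorem ordQ_congr {z z' r r' : R} (h : z ∣ r - r') : ordQ z z' r = ordQ z z' r' := by
  have : Ideal.Quotient.mk (Ideal.span {z}) r = Ideal.Quotient.mk (Ideal.span {z}) r' := by
    rw [Ideal.Quotient.eq, Ideal.mem_span_singleton]
    exact h
  rw [ordQ, ordQ, this]

variable [IsDomain R] [IsNoetherianRing R] [IsLocalRing R] {z z' : R}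

theorem ordQ_mul (hmax : maximalIdeal R = Ideal.span {z, z'}) (hz : Prime z) (hzz' : ¬ z ∣ z')
    {r r' : R} (hr : ¬ z ∣ r) (hr' : ¬ z ∣ r') : ordQ z z' (r * r') = ordQ z z' r + ordQ z z' r' := by
  haveI := quot_isDomain hz
  haveI := quot_isDiscreteValuationRing hmax hz hzz'
  have hirr := quot_irreducible_mk hmax hz hzz'
  have hprime : Prime (Ideal.Quotient.mk (Ideal.span {z}) z') := hirr.prime
  rw [ordQ, ordQ, ordQ, map_mul]
  refine multiplicity_mul hprime (FiniteMultiplicity.of_not_isUnit hirr.not_isUnit ?_)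
  rw [← map_mul, Ne, mk_eq_zero_iff]
  intro hd
  rcases hz.dvd_or_dvd hd with h | h
  · exact hr h
  · exact hr' h

theorem ordQ_self (hmax : maximalIdeal R = Ideal.span {z, z'}) (hz : Prime z) (hzz' : ¬ z ∣ z') :
    ordQ z z' z' = 1 := by
  haveI := quot_isDomain hz
  haveI := quot_isDiscreteValuationRing hmax hz hzz'
  have hirr := quot_irreducible_mk hmax hz hzz'
  rw [ordQ]
  have := multiplicity_pow_self hirr.ne_zero hirr.not_isUnit 1
  rwa [pow_one] at this

/-- **normal form modulo `z`** -/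
theorem exists_unit_mul_pow (hmax : maximalIdeal R = Ideal.span {z, z'}) (hz : Prime z)
    (hzz' : ¬ z ∣ z') {r : R} (hr : ¬ z ∣ r) :
    ∃ ε r'' : R, IsUnit ε ∧ r = ε * z' ^ ordQ z z' r + z * r'' := by
  haveI := quot_isDomain hz
  haveI := quot_isDiscreteValuationRing hmax hz hzz'
  haveI := quot_isLocalRing hz
  have hirr := quot_irreducible_mk hmax hz hzz'
  set mk := Ideal.Quotient.mk (Ideal.span {z}) with hmk
  have hr0 : mk r ≠ 0 := fun h0 => hr (mk_eq_zero_iff.mp h0)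
  obtain ⟨n, u, hu⟩ := IsDiscreteValuationRing.eq_unit_mul_pow_irreducible hr0 hirr
  have hn : ordQ z z' r = n := by
    rw [ordQ]
    refine multiplicity_eq_of_dvd_of_not_dvd ?_ ?_
    · exact ⟨u, by rw [hu]; ring⟩
    · intro hd
      rw [hu, pow_succ] at hd
      have h1 : mk z' ^ n ≠ 0 := pow_ne_zero n hirr.ne_zero
      have h2 : mk z' ∣ (u : R ⧸ Ideal.span {z}) := by
        obtain ⟨c, hc⟩ := hd
        refine ⟨c, ?_⟩
        have : mk z' ^ n * (u : R ⧸ Ideal.span {z}) = mk z' ^ n * (mk z' * c) := by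
          rw [mul_comm, hc]; ring
        exact mul_left_cancel₀ h1 this
      exact hirr.not_isUnit (isUnit_of_dvd_unit h2 u.isUnit)
  obtain ⟨ε, hε⟩ := Ideal.Quotient.mk_surjective (u : R ⧸ Ideal.span {z})
  have hεu : IsUnit ε := by
    by_contra hnu
    have hmem : ε ∈ maximalIdeal R := (mem_maximalIdeal ε).mpr hnu
    rw [hmax, Ideal.mem_span_pair] at hmem
    obtain ⟨a, b, hab⟩ := hmem
    have : mk ε = mk b * mk z' := by
      rw [← hab, map_add, map_mul, map_mul, mk_eq_zero_iff.mpr (dvd_refl z), mul_zero, zero_add]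
    have h2 : mk z' ∣ (u : R ⧸ Ideal.span {z}) := ⟨mk b, by rw [← hε, this, mul_comm]⟩
    exact hirr.not_isUnit (isUnit_of_dvd_unit h2 u.isUnit)
  have hdiff : z ∣ r - ε * z' ^ n := by
    rw [← mk_eq_zero_iff (z := z), map_sub, map_mul, map_pow, hε, ← hu, sub_self]
  obtain ⟨r'', hr''⟩ := hdiff
  refine ⟨ε, r'', hεu, ?_⟩
  rw [hn, ← hr'']
  ring

theorem ordQ_unit (hmax : maximalIdeal R = Ideal.span {z, z'}) (hz : Prime z) (hzz' : ¬ z ∣ z')
    {ε : R} (hε : IsUnit ε) : ordQ z z' ε = 0 := by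
  haveI := quot_isDomain hz
  haveI := quot_isDiscreteValuationRing hmax hz hzz'
  have hirr := quot_irreducible_mk hmax hz hzz'
  rw [ordQ]
  refine multiplicity_eq_of_dvd_of_not_dvd (by rw [pow_zero]; exact one_dvd _) ?_
  rw [zero_add, pow_one]
  intro hd
  exact hirr.not_isUnit (isUnit_of_dvd_unit hd (hε.map _))

/-- **`e = 1`**: a ring homomorphism `ψ : R₀ → R` of such rings with `ψ z₀ = z`, `ψ z₀' = z'`
preserves the order modulo `z`. -/
theorem ordQ_map {R₀ : Type*} [CommRing R₀] [IsDomain R₀] [IsNoetherianRing R₀] [IsLocalRing R₀]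
    {z₀ z₀' : R₀} (hmax₀ : maximalIdeal R₀ = Ideal.span {z₀, z₀'}) (hz₀ : Prime z₀)
    (hzz₀ : ¬ z₀ ∣ z₀') (hmax : maximalIdeal R = Ideal.span {z, z'}) (hz : Prime z)
    (hzz' : ¬ z ∣ z') (ψ : R₀ →+* R) (hψz : ψ z₀ = z) (hψz' : ψ z₀' = z') {r : R₀}
    (hr : ¬ z₀ ∣ r) : ordQ z z' (ψ r) = ordQ z₀ z₀' r := by
  haveI := quot_isDomain hz
  haveI := quot_isDiscreteValuationRing hmax hz hzz'
  have hirr := quot_irreducible_mk hmax hz hzz'
  obtain ⟨ε, r'', hε, hr''⟩ := exists_unit_mul_pow hmax₀ hz₀ hzz₀ hr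
  set n := ordQ z₀ z₀' r with hn
  have h1 : ψ r = ψ ε * z' ^ n + z * ψ r'' := by
    conv_lhs => rw [hr'']
    rw [map_add, map_mul, map_mul, map_pow, hψz, hψz']
  have h2 : ordQ z z' (ψ r) = ordQ z z' (ψ ε * z' ^ n) := by
    apply ordQ_congr
    rw [h1]
    exact ⟨ψ r'', by ring⟩
  rw [h2, ordQ, map_mul, map_pow]
  have hu : IsUnit (Ideal.Quotient.mk (Ideal.span {z}) (ψ ε)) := (hε.map ψ).map _
  refine multiplicity_eq_of_dvd_of_not_dvd (Dvd.intro_left _ rfl) ?_
  intro hd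
  rw [pow_succ] at hd
  have h3 : Ideal.Quotient.mk (Ideal.span {z}) z' ^ n ≠ 0 := pow_ne_zero n hirr.ne_zero
  have h4 : Ideal.Quotient.mk (Ideal.span {z}) z' ∣ Ideal.Quotient.mk (Ideal.span {z}) (ψ ε) := by
    obtain ⟨c, hc⟩ := hd
    refine ⟨c, ?_⟩
    have : Ideal.Quotient.mk (Ideal.span {z}) z' ^ n * Ideal.Quotient.mk (Ideal.span {z}) (ψ ε) =
        Ideal.Quotient.mk (Ideal.span {z}) z' ^ n * (Ideal.Quotient.mk (Ideal.span {z}) z' * c) := by
      rw [mul_comm, hc]; ring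
    exact mul_left_cancel₀ h3 this
  exact hirr.not_isUnit (isUnit_of_dvd_unit h4 hu)

end Ord

/-! ### The order function inside a valued field -/

section Val

variable {R : Type*} [CommRing R] [IsDomain R] [IsNoetherianRing R] [IsLocalRing R] {z z' : R}
  {E : Type*} [Field E] {Γ₀ : Type*} [LinearOrderedCommGroupWithZero Γ₀]

theorem val_unit_eq_one (φ : R →+* E) (v : Valuation E Γ₀) (hle : ∀ r, v (φ r) ≤ 1) {ε : R}
    (hε : IsUnit ε) : v (φ ε) = 1 := by
  obtain ⟨ε', hε'⟩ := isUnit_iff_exists_inv.mp hε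
  have h1 : v (φ ε) * v (φ ε') = 1 := by rw [← map_mul, ← map_mul, hε', map_one, map_one]
  refine le_antisymm (hle ε) ?_
  by_contra hlt
  rw [not_le] at hlt
  have : v (φ ε) * v (φ ε') < 1 :=
    calc v (φ ε) * v (φ ε') ≤ v (φ ε) * 1 := mul_le_mul_right (hle ε') _
      _ = v (φ ε) := mul_one _
      _ < 1 := hlt
  rw [h1] at this
  exact lt_irrefl _ this

/-- `𝔪_v ∩ R = z R` -/
theorem val_lt_one_iff (hmax : maximalIdeal R = Ideal.span {z, z'}) (hz : Prime z)
    (hzz' : ¬ z ∣ z') (φ : R →+* E) (v : Valuation E Γ₀) (hle : ∀ r, v (φ r) ≤ 1)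
    (hvz : v (φ z) < 1) (hvz' : v (φ z') = 1) (r : R) : v (φ r) < 1 ↔ z ∣ r := by
  constructor
  · intro hlt
    by_contra hr
    obtain ⟨ε, r'', hε, hr''⟩ := exists_unit_mul_pow hmax hz hzz' hr
    have h1 : v (φ (ε * z' ^ ordQ z z' r)) = 1 := by
      rw [map_mul, map_mul, map_pow, map_pow, hvz', one_pow, mul_one]
      exact val_unit_eq_one φ v hle hε
    have h2 : v (φ (z * r'')) < 1 := by
      rw [map_mul, map_mul]
      calc v (φ z) * v (φ r'') ≤ v (φ z) * 1 := mul_le_mul_right (hle r'') _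
        _ = v (φ z) := mul_one _
        _ < 1 := hvz
    have h3 : v (φ r) = 1 := by
      rw [hr'', map_add, Valuation.map_add_eq_of_lt_left v (by rw [h1]; exact h2), h1]
    rw [h3] at hlt
    exact lt_irrefl _ hlt
  · rintro ⟨s, rfl⟩
    rw [map_mul, map_mul]
    calc v (φ z) * v (φ s) ≤ v (φ z) * 1 := mul_le_mul_right (hle s) _
      _ = v (φ z) := mul_one _
      _ < 1 := hvz

open Classical in
/-- the order function on `φ R ⊆ E` (junk value `0` outside `φ R`) -/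
noncomputable def nodeOrd (φ : R →+* E) (z z' : R) (e : E) : ℤ :=
  if h : ∃ r, φ r = e then (ordQ z z' h.choose : ℤ) else 0

theorem nodeOrd_apply (φ : R →+* E) (hφ : Function.Injective φ) (z z' r : R) :
    nodeOrd φ z z' (φ r) = ordQ z z' r := by
  have h : ∃ r', φ r' = φ r := ⟨r, rfl⟩
  rw [nodeOrd, dif_pos h, hφ h.choose_spec]

theorem nodeOrd_nonneg (φ : R →+* E) (z z' : R) (e : E) : 0 ≤ nodeOrd φ z z' e := by
  rw [nodeOrd]
  split_ifs
  · exact Int.natCast_nonneg _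
  · exact le_rfl

theorem nodeOrd_z' (hmax : maximalIdeal R = Ideal.span {z, z'}) (hz : Prime z) (hzz' : ¬ z ∣ z')
    (φ : R →+* E) (hφ : Function.Injective φ) : nodeOrd φ z z' (φ z') = 1 := by
  rw [nodeOrd_apply φ hφ, ordQ_self hmax hz hzz']
  rfl

/-- (o1) for `nodeOrd` -/
theorem nodeOrd_mul (hmax : maximalIdeal R = Ideal.span {z, z'}) (hz : Prime z) (hzz' : ¬ z ∣ z')
    (φ : R →+* E) (hφ : Function.Injective φ) (v : Valuation E Γ₀) (hle : ∀ r, v (φ r) ≤ 1)
    (hvz : v (φ z) < 1) (hvz' : v (φ z') = 1) :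
    ∀ e ∈ φ.range, ∀ e' ∈ φ.range, v e = 1 → v e' = 1 →
      nodeOrd φ z z' (e * e') = nodeOrd φ z z' e + nodeOrd φ z z' e' := by
  rintro _ ⟨r, rfl⟩ _ ⟨r', rfl⟩ h1 h1'
  have hr : ¬ z ∣ r := fun hd => by
    have := (val_lt_one_iff hmax hz hzz' φ v hle hvz hvz' r).mpr hd
    rw [h1] at this
    exact lt_irrefl _ this
  have hr' : ¬ z ∣ r' := fun hd => by
    have := (val_lt_one_iff hmax hz hzz' φ v hle hvz hvz' r').mpr hd
    rw [h1'] at this
    exact lt_irrefl _ this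
  rw [← map_mul, nodeOrd_apply φ hφ, nodeOrd_apply φ hφ, nodeOrd_apply φ hφ,
    ordQ_mul hmax hz hzz' hr hr']
  push_cast
  rfl

/-- (o2) for `nodeOrd` -/
theorem nodeOrd_congr (hmax : maximalIdeal R = Ideal.span {z, z'}) (hz : Prime z)
    (hzz' : ¬ z ∣ z') (φ : R →+* E) (hφ : Function.Injective φ) (v : Valuation E Γ₀)
    (hle : ∀ r, v (φ r) ≤ 1) (hvz : v (φ z) < 1) (hvz' : v (φ z') = 1) :
    ∀ e ∈ φ.range, ∀ e' ∈ φ.range, v (e - e') < 1 → nodeOrd φ z z' e = nodeOrd φ z z' e' := by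
  rintro _ ⟨r, rfl⟩ _ ⟨r', rfl⟩ hlt
  rw [← map_sub] at hlt
  have hd := (val_lt_one_iff hmax hz hzz' φ v hle hvz hvz' (r - r')).mp hlt
  rw [nodeOrd_apply φ hφ, nodeOrd_apply φ hφ, ordQ_congr hd]

/-- compatibility of `nodeOrd` with a sub-node-ring (`hoo` of the side data): `e = 1`. -/
theorem nodeOrd_comp {R₀ : Type*} [CommRing R₀] [IsDomain R₀] [IsNoetherianRing R₀]
    [IsLocalRing R₀] {z₀ z₀' : R₀} (hmax₀ : maximalIdeal R₀ = Ideal.span {z₀, z₀'})
    (hz₀ : Prime z₀) (hzz₀ : ¬ z₀ ∣ z₀') (hmax : maximalIdeal R = Ideal.span {z, z'})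
    (hz : Prime z) (hzz' : ¬ z ∣ z') (ψ : R₀ →+* R) (hψz : ψ z₀ = z) (hψz' : ψ z₀' = z')
    (φ : R →+* E) (hφ : Function.Injective φ) (hψ : Function.Injective ψ) {r : R₀}
    (hr : ¬ z₀ ∣ r) : nodeOrd φ z z' (φ (ψ r)) = nodeOrd (φ.comp ψ) z₀ z₀' (φ (ψ r)) := by
  rw [nodeOrd_apply φ hφ, ordQ_map hmax₀ hz₀ hzz₀ hmax hz hzz' ψ hψz hψz' hr]
  have := nodeOrd_apply (φ.comp ψ) (hφ.comp hψ) z₀ z₀' r
  rw [RingHom.comp_apply] at this
  rw [this]

end Val

end Fermat.Agent.S40x.R2.Slope
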