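import Fermat.Agent.S40x.R2.SlopeB.NodeSlope
import Fermat.Agent.S40x.R2.Slope.NodeOrder

/-!
# P-S44, block C3, leaf C3-SLOPE (helper41): the per-node statement with the order function plugged

`SlopeB/NodeSlope.node_slope` (helper12) takes an abstract order function `o` on a subring
`R' ≤ W` upstairs.  Here `R'` is the image `φ Rn` of the etale lift `Rn = R*_s` of the node ring
(a TYPE: Noetherian local domain with maximal ideal `(u, u')`, UFD, fraction field `E0`,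
`φ = ι ∘ algebraMap Rn E0`) and `o := nodeOrd φ u u'` (`Slope/NodeOrder`), so that the hypotheses
`hRs hoo ho_mul ho_congr hle hnn hvu' hou'` of `node_slope` are DISCHARGED from

* the ring-theoretic node literal of `Rn` (`hmaxn hu hu' hndvd`) and of the node ring downstairs
  `R₀ = R_s` (`hmax₀ hu₀ hndvd₀`), a ring homomorphism `ψ : R₀ → Rn`, `ψ u₀ = u`, `ψ u₀' = u'`,
  compatible with the embeddings `φ₀ : R₀ → F`, `φ : Rn → E`;
* `φ Rn ⊆ W`, `u ∈ 𝔪_W`, `u'` a unit of `W`;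
* (n3) downstairs: `P.ord (res (φ₀ r)) = ord_{R₀/(u₀)} r` for `u₀ ∤ r`.

Also `exists_valuationSubring_over`: a valuation subring `W` of `E` over a given valuation subring
`O` of `F` (the literal `hVW`).
-/

set_option autoImplicit false
set_option linter.unusedSectionVars false

namespace Fermat.Agent.S40x.R2.Slope

open AlgebraicCurve IsLocalRing Fermat.Agent.Gateway.Kummer Fermat.Agent.Gateway.C0
  Fermat.Agent.S40x.Slope.SlopeInv Fermat.Agent.S40x.R2.Transitive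
  Fermat.Agent.S40x.R2.SlopeB.PlaceInst Fermat.Agent.S40x.R2.SlopeB.Lift

/-- a valuation subring of `E` over a valuation subring `O` of `F` -/
theorem exists_valuationSubring_over {F E : Type*} [Field F] [Field E] [Algebra F E]
    (O : ValuationSubring F) :
    ∃ W : ValuationSubring E, ∀ e : F, algebraMap F E e ∈ W ↔ e ∈ O := by
  obtain ⟨W, hW⟩ := (LocalSubring.map (algebraMap F E) O.toLocalSubring).exists_le_valuationSubring
  obtain ⟨hle, hloc⟩ := hW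
  have hmem : ∀ e ∈ O, algebraMap F E e ∈ W := fun e he => hle ⟨e, he, rfl⟩
  refine ⟨W, fun e => ⟨fun he => ?_, hmem e⟩⟩
  by_contra heO
  have he0 : e ≠ 0 := by
    rintro rfl
    exact heO O.zero_mem
  have hinv : e⁻¹ ∈ O := (O.mem_or_inv_mem e).resolve_left heO
  -- `algebraMap e⁻¹` is a unit of `W`, hence of the image of `O`
  let a : (LocalSubring.map (algebraMap F E) O.toLocalSubring).toSubring :=
    ⟨algebraMap F E e⁻¹, ⟨e⁻¹, hinv, rfl⟩⟩
  have hu : IsUnit (Subring.inclusion hle a) := by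
    refine isUnit_iff_exists_inv.mpr ⟨⟨algebraMap F E e, he⟩, Subtype.ext ?_⟩
    show algebraMap F E e⁻¹ * algebraMap F E e = 1
    rw [← map_mul, inv_mul_cancel₀ he0, map_one]
  have hu' : IsUnit a := hloc.map_nonunit a hu
  obtain ⟨b, hb⟩ := isUnit_iff_exists_inv.mp hu'
  obtain ⟨e', he'O, he'⟩ := b.2
  have h1 : algebraMap F E e⁻¹ * algebraMap F E e' = 1 := by
    have := congrArg Subtype.val hb
    rw [he']
    exact this
  have h2 : e' = e := by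
    have : algebraMap F E (e⁻¹ * e') = algebraMap F E 1 := by rw [map_mul, h1, map_one]
    have h3 := (algebraMap F E).injective this
    field_simp at h3
    exact h3
  exact heO (h2 ▸ he'O)

variable {L : Type*} [Field L] [IsAlgClosed L] {F : Type*} [Field F] [Algebra L F]
  [HasPrincipalDivisors L F]
  {k : Type*} [Field k] {Eκ : Type*} [Field Eκ] [Algebra k Eκ]
  {A : ValuationSubring L} {O₁ O₂ O : ValuationSubring F}
variable {E : Type*} [Field E] [Algebra F E] {W : ValuationSubring E}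
variable {G : Type*} [Group G] [Fintype G] [MulSemiringAction G E] [SMulCommClass G F E]
  [Algebra.IsInvariant F E G]
variable {E0 : Type*} [Field E0] {Rn : Type*} [CommRing Rn] [IsDomain Rn]
  [UniqueFactorizationMonoid Rn] [IsNoetherianRing Rn] [IsLocalRing Rn] [Algebra Rn E0]
  [IsFractionRing Rn E0]
variable {R₀ : Type*} [CommRing R₀] [IsDomain R₀] [IsNoetherianRing R₀] [IsLocalRing R₀]

/-- **the slope at a node**, order function plugged. -/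
theorem node_slope_nodeOrd (R : Fermat.Agent.Gateway.C0.RedSetup A O k Eκ) (P : Place k Eκ) {p : ℕ}
    (hS : SlopeData (L := L) O₁ O₂ O R.res p)
    -- the node ring downstairs
    {u₀ u₀' : R₀} (hmax₀ : maximalIdeal R₀ = Ideal.span {u₀, u₀'}) (hu₀ : Prime u₀)
    (hndvd₀ : ¬ u₀ ∣ u₀') (φ₀ : R₀ →+* F)
    (hdense : ∀ x : F, O.valuation x = 1 → ∃ r1 ∈ φ₀.range, ∃ r2 ∈ φ₀.range, O.valuation r1 = 1 ∧
      O.valuation r2 = 1 ∧ O.valuation (x * r2 - r1) < 1)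
    (hn3 : ∀ r : R₀, ¬ u₀ ∣ r → ordAt O R.res P (φ₀ r) = ordQ u₀ u₀' r)
    -- upstairs
    (hVW : ∀ e : F, algebraMap F E e ∈ W ↔ e ∈ O)
    (ι : E0 →+* E) {u u' : Rn} (hmaxn : maximalIdeal Rn = Ideal.span {u, u'})
    (hu : Prime u) (hu' : Prime u') (hndvd : ¬ u ∣ u') (hndvd' : ¬ u' ∣ u)
    (hφW : ∀ r : Rn, ι (algebraMap Rn E0 r) ∈ W)
    (hvu : W.valuation (ι (algebraMap Rn E0 u)) < 1)
    (hvu' : W.valuation (ι (algebraMap Rn E0 u')) = 1)
    (ψ : R₀ →+* Rn) (hψu : ψ u₀ = u) (hψu' : ψ u₀' = u')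
    (hcomp : ∀ r : R₀, algebraMap F E (φ₀ r) = ι (algebraMap Rn E0 (ψ r)))
    {θn : Rn} (hθ : ∀ g : G, g • ι (algebraMap Rn E0 θn) ∈ W)
    (hθu : ∀ g g' : G, g ≠ g' →
      W.valuation (g • ι (algebraMap Rn E0 θn) - g' • ι (algebraMap Rn E0 θn)) = 1)
    {Ψ : Rnˣ} {c₀ : L} (hc₀ : c₀ ≠ 0)
    (hrel : ι (algebraMap Rn E0 (u * u')) =
      algebraMap F E (algebraMap L F c₀) * ι (algebraMap Rn E0 Ψ))
    {Winf Wzero : ValuationSubring E0} {winf wzero : E0 → ℤ}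
    (hwinf : IsOrd Winf winf) (hwzero : IsOrd Wzero wzero)
    (hinf_u : winf (algebraMap Rn E0 u) = 1)
    (hinf_0 : ∀ r : Rn, ¬ u ∣ r → winf (algebraMap Rn E0 r) = 0)
    (hzero_u' : wzero (algebraMap Rn E0 u') = 1)
    (hzero_0 : ∀ r : Rn, ¬ u' ∣ r → wzero (algebraMap Rn E0 r) = 0)
    -- the Kummer functions
    {x : Pic0 L F} {fx : F} (hfx : IsKummerRep p x fx) {c : L} (hc : c ≠ 0) {g : E} (hg : g ≠ 0)
    {ft : E0} (hft : ft ≠ 0)
    (hftx : ι ft = algebraMap F E (algebraMap L F c) * algebraMap F E fx * g ^ p)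
    (H : ∀ h : Rn, Prime h → ¬ Associated h u → ¬ Associated h u' →
      ∀ f1 f2 : Rn, f2 ≠ 0 → ft * algebraMap Rn E0 f2 = algebraMap Rn E0 f1 →
      ∀ n1 n2 : ℕ, h ^ n1 ∣ f1 → ¬ h ^ (n1 + 1) ∣ f1 → h ^ n2 ∣ f2 → ¬ h ^ (n2 + 1) ∣ f2 →
        (p : ℤ) ∣ (n1 : ℤ) - n2) :
    slopeAt O₁ O₂ O R.res p x P = ((wzero ft - winf ft : ℤ) : ZMod p) := by
  set φ : Rn →+* E := ι.comp (algebraMap Rn E0) with hφdef
  have hφinj : Function.Injective φ := ι.injective.comp (IsFractionRing.injective Rn E0)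
  have hφapp : ∀ r : Rn, φ r = ι (algebraMap Rn E0 r) := fun _ => rfl
  have hle : ∀ r : Rn, W.valuation (φ r) ≤ 1 := fun r =>
    (ValuationSubring.valuation_le_one_iff W _).mpr (hφW r)
  have hW1 : ∀ e : E, W.valuation e = 1 → e ∈ W := fun e he =>
    (ValuationSubring.valuation_le_one_iff W e).mp he.le
  -- units of `O` in `φ₀ R₀` come from elements prime to `u₀`
  have hprime : ∀ r₀ : R₀, O.valuation (φ₀ r₀) = 1 → ¬ u₀ ∣ r₀ := by
    intro r₀ h1 hd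
    have hd' : u ∣ ψ r₀ := by
      rw [← hψu]
      exact map_dvd ψ hd
    have h2 := (val_lt_one_iff hmaxn hu hndvd φ W.valuation hle hvu hvu' (ψ r₀)).mpr hd'
    rw [hφapp, ← hcomp] at h2
    have h3 := (Fermat.Agent.S40x.R2.SlopeB.Lift.val_lt_one_iff hVW (φ₀ r₀)).mp h2
    rw [h1] at h3
    exact lt_irrefl _ h3
  refine Fermat.Agent.S40x.R2.SlopeB.NodeSlope.node_slope (G := G) R P hS (Rs := φ₀.range) hdense
    hVW (R' := φ.range) (o := nodeOrd φ u u') ?_ ?_ ?_ ?_ ?_ ?_ (θ := ι (algebraMap Rn E0 θn)) ?_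
    hθ hθu ι ?_ hu hu' hc₀ hvu' ?_ hrel hndvd hndvd' hwinf hwzero hinf_u hinf_0 hzero_u' hzero_0
    hfx hc hg hft hftx H
  · -- hRs
    rintro _ ⟨r₀, rfl⟩
    exact ⟨ψ r₀, (hcomp r₀).symm⟩
  · -- hoo
    rintro _ ⟨r₀, rfl⟩ h1
    have hr₀ := hprime r₀ h1
    rw [hcomp, ← hφapp, nodeOrd_apply φ hφinj, ordQ_map hmax₀ hu₀ hndvd₀ hmaxn hu hndvd ψ hψu hψu' hr₀,
      hn3 r₀ hr₀]
  · -- ho_mul
    exact nodeOrd_mul hmaxn hu hndvd φ hφinj W.valuation hle hvu hvu'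
  · -- ho_congr
    intro r hr r' hr' _ _ hlt
    exact nodeOrd_congr hmaxn hu hndvd φ hφinj W.valuation hle hvu hvu' r hr r' hr' hlt
  · -- hle
    rintro _ ⟨r, rfl⟩
    exact hφW r
  · -- hnn
    intro r _ _
    exact nodeOrd_nonneg φ u u' r
  · -- θ ∈ R'
    exact ⟨θn, rfl⟩
  · -- hR
    intro r
    exact ⟨r, rfl⟩
  · -- hou'
    exact nodeOrd_z' hmaxn hu hndvd φ hφinj

/-- **the slope at a smooth point** (or cusp), order function plugged: `Rn` the etale lift of the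
smooth-point ring, maximal ideal `(π, t)`, `π` the vertical prime (a constant, in the application
`p`), `t` a unit of `W` reducing to a uniformiser at `P`. -/
theorem smooth_slope_nodeOrd (R : Fermat.Agent.Gateway.C0.RedSetup A O k Eκ) (P : Place k Eκ)
    {p : ℕ} (hS : SlopeData (L := L) O₁ O₂ O R.res p)
    -- the smooth-point ring downstairs
    {π₀ t₀ : R₀} (hmax₀ : maximalIdeal R₀ = Ideal.span {π₀, t₀}) (hπ₀ : Prime π₀)
    (hndvd₀ : ¬ π₀ ∣ t₀) (φ₀ : R₀ →+* F)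
    (hdense : ∀ x : F, O.valuation x = 1 → ∃ r1 ∈ φ₀.range, ∃ r2 ∈ φ₀.range, O.valuation r1 = 1 ∧
      O.valuation r2 = 1 ∧ O.valuation (x * r2 - r1) < 1)
    (hn3 : ∀ r : R₀, ¬ π₀ ∣ r → ordAt O R.res P (φ₀ r) = ordQ π₀ t₀ r)
    -- upstairs
    (hVW : ∀ e : F, algebraMap F E e ∈ W ↔ e ∈ O)
    (ι : E0 →+* E) {π t : Rn} (hmaxn : maximalIdeal Rn = Ideal.span {π, t})
    (hπ : Prime π) (hndvd : ¬ π ∣ t)
    (hφW : ∀ r : Rn, ι (algebraMap Rn E0 r) ∈ W)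
    (hvπ : W.valuation (ι (algebraMap Rn E0 π)) < 1)
    (hvt : W.valuation (ι (algebraMap Rn E0 t)) = 1)
    (ψ : R₀ →+* Rn) (hψπ : ψ π₀ = π) (hψt : ψ t₀ = t)
    (hcomp : ∀ r : R₀, algebraMap F E (φ₀ r) = ι (algebraMap Rn E0 (ψ r)))
    {θn : Rn} (hθ : ∀ g : G, g • ι (algebraMap Rn E0 θn) ∈ W)
    (hθu : ∀ g g' : G, g ≠ g' →
      W.valuation (g • ι (algebraMap Rn E0 θn) - g' • ι (algebraMap Rn E0 θn)) = 1)
    {c₀ : L} (hc₀ : c₀ ≠ 0)
    (hπc : ι (algebraMap Rn E0 π) = algebraMap F E (algebraMap L F c₀))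
    {x : Pic0 L F} {fx : F} (hfx : IsKummerRep p x fx) {c : L} (hc : c ≠ 0) {g : E} (hg : g ≠ 0)
    {ft : E0} (hft : ft ≠ 0)
    (hftx : ι ft = algebraMap F E (algebraMap L F c) * algebraMap F E fx * g ^ p)
    (H : ∀ h : Rn, Prime h → ¬ Associated h π →
      ∀ f1 f2 : Rn, f2 ≠ 0 → ft * algebraMap Rn E0 f2 = algebraMap Rn E0 f1 →
      ∀ n1 n2 : ℕ, h ^ n1 ∣ f1 → ¬ h ^ (n1 + 1) ∣ f1 → h ^ n2 ∣ f2 → ¬ h ^ (n2 + 1) ∣ f2 →
        (p : ℤ) ∣ (n1 : ℤ) - n2) :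
    slopeAt O₁ O₂ O R.res p x P = 0 := by
  set φ : Rn →+* E := ι.comp (algebraMap Rn E0) with hφdef
  have hφinj : Function.Injective φ := ι.injective.comp (IsFractionRing.injective Rn E0)
  have hφapp : ∀ r : Rn, φ r = ι (algebraMap Rn E0 r) := fun _ => rfl
  have hle : ∀ r : Rn, W.valuation (φ r) ≤ 1 := fun r =>
    (ValuationSubring.valuation_le_one_iff W _).mpr (hφW r)
  have hprime : ∀ r₀ : R₀, O.valuation (φ₀ r₀) = 1 → ¬ π₀ ∣ r₀ := by
    intro r₀ h1 hd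
    have hd' : π ∣ ψ r₀ := by
      rw [← hψπ]
      exact map_dvd ψ hd
    have h2 := (val_lt_one_iff hmaxn hπ hndvd φ W.valuation hle hvπ hvt (ψ r₀)).mpr hd'
    rw [hφapp, ← hcomp] at h2
    have h3 := (Fermat.Agent.S40x.R2.SlopeB.Lift.val_lt_one_iff hVW (φ₀ r₀)).mp h2
    rw [h1] at h3
    exact lt_irrefl _ h3
  refine Fermat.Agent.S40x.R2.SlopeB.NodeSlope.smooth_slope (G := G) R P hS (Rs := φ₀.range)
    hdense hVW (R' := φ.range) (o := nodeOrd φ π t) ?_ ?_ ?_ ?_ ?_ ?_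
    (θ := ι (algebraMap Rn E0 θn)) ?_ hθ hθu ι ?_ hπ hc₀ hπc hfx hc hg hft hftx H
  · rintro _ ⟨r₀, rfl⟩
    exact ⟨ψ r₀, (hcomp r₀).symm⟩
  · rintro _ ⟨r₀, rfl⟩ h1
    have hr₀ := hprime r₀ h1
    rw [hcomp, ← hφapp, nodeOrd_apply φ hφinj, ordQ_map hmax₀ hπ₀ hndvd₀ hmaxn hπ hndvd ψ hψπ hψt hr₀,
      hn3 r₀ hr₀]
  · exact nodeOrd_mul hmaxn hπ hndvd φ hφinj W.valuation hle hvπ hvt
  · intro r hr r' hr' _ _ hlt
    exact nodeOrd_congr hmaxn hπ hndvd φ hφinj W.valuation hle hvπ hvt r hr r' hr' hlt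
  · rintro _ ⟨r, rfl⟩
    exact hφW r
  · intro r _ _
    exact nodeOrd_nonneg φ π t r
  · exact ⟨θn, rfl⟩
  · intro r
    exact ⟨r, rfl⟩

end Fermat.Agent.S40x.R2.Slope
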