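import Fermat.Agent.S40x.R2.Slope.ImmTheta
import Fermat.Agent.S40x.R2.Slope.SideSlope

/-!
# P-S44, block C3, leaf C3-SLOPE (helper41): lifting the side datum to the cover

Mathlib only.

* `approxRing v S`: for a subring `S` of the valuation ring of `v`, the subring of the
  `v`-integral elements whose residue class lies in the fraction field of the image of `S`
  (the non-units, and the `y` with `v (y r2 - r1) < 1` for units `r1, r2` of `v` in `S`).
* `dense_lift`: hypothesis `dense` of `SideDatum` upstairs.  `G` a finite group of automorphisms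
  of `E` with fixed field `ιF F`; `R₀ ⊆ F` dense downstairs; `S ⊆ E` a `v`-integral subring
  containing `ιF R₀` and an element `θ` whose conjugates are integral and pairwise different
  modulo the maximal ideal.  Then `S` is dense upstairs (`ImmTheta.exists_fixed_coeffs`).
* `scal_lift`: hypothesis `scal` upstairs from `scal` downstairs, when the constants have all
  roots (`L` algebraically closed).
* `const_lift`: hypothesis `const` upstairs from the side datum downstairs.
-/

set_option autoImplicit false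

namespace Fermat.Agent.S40x.R2.Slope

variable {E : Type*} [Field E] {Γ₀ : Type*} [LinearOrderedCommGroupWithZero Γ₀]

/-- approximation by a fraction of units of `S` -/
def IsApprox (v : Valuation E Γ₀) (S : Subring E) (y : E) : Prop :=
  ∃ r1 ∈ S, ∃ r2 ∈ S, v r1 = 1 ∧ v r2 = 1 ∧ v (y * r2 - r1) < 1

theorem IsApprox.val_eq_one {v : Valuation E Γ₀} {S : Subring E} {y : E} (h : IsApprox v S y) :
    v y = 1 := by
  obtain ⟨r1, -, r2, -, h1, h2, h3⟩ := h
  have := val_eq_one_of_sub_lt v h1 h3
  rwa [map_mul, h2, mul_one] at this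

theorem IsApprox.mul {v : Valuation E Γ₀} {S : Subring E} {y y' : E} (h : IsApprox v S y)
    (h' : IsApprox v S y') : IsApprox v S (y * y') := by
  have hy' := h'.val_eq_one
  obtain ⟨r1, hr1, r2, hr2, h1, h2, h3⟩ := h
  obtain ⟨r1', hr1', r2', hr2', h1', h2', h3'⟩ := h'
  refine ⟨r1 * r1', S.mul_mem hr1 hr1', r2 * r2', S.mul_mem hr2 hr2', by
    rw [map_mul, h1, h1', one_mul], by rw [map_mul, h2, h2', one_mul], ?_⟩
  have e : y * y' * (r2 * r2') - r1 * r1' = (y * r2 - r1) * (y' * r2') + r1 * (y' * r2' - r1') := by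
    ring
  rw [e]
  refine Valuation.map_add_lt v ?_ ?_
  · rw [map_mul, map_mul v y' r2', hy', h2', one_mul, mul_one]
    exact h3
  · rw [map_mul, h1, one_mul]
    exact h3'

/-- the `v`-integral elements with residue class in the fraction field of the image of `S` -/
def approxRing (v : Valuation E Γ₀) (S : Subring E) : Subring E where
  carrier := {y | v y < 1 ∨ IsApprox v S y}
  zero_mem' := Or.inl (by rw [map_zero]; exact zero_lt_one)
  one_mem' := Or.inr ⟨1, S.one_mem, 1, S.one_mem, map_one v, map_one v, by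
    rw [mul_one, sub_self, map_zero]; exact zero_lt_one⟩
  add_mem' := by
    rintro y y' (hy | hy) (hy' | hy')
    · exact Or.inl (Valuation.map_add_lt v hy hy')
    · obtain ⟨r1', hr1', r2', hr2', h1', h2', h3'⟩ := hy'
      refine Or.inr ⟨r1', hr1', r2', hr2', h1', h2', ?_⟩
      have e : (y + y') * r2' - r1' = y * r2' + (y' * r2' - r1') := by ring
      rw [e]
      refine Valuation.map_add_lt v ?_ h3'
      rw [map_mul, h2', mul_one]
      exact hy
    · obtain ⟨r1, hr1, r2, hr2, h1, h2, h3⟩ := hy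
      refine Or.inr ⟨r1, hr1, r2, hr2, h1, h2, ?_⟩
      have e : (y + y') * r2 - r1 = y' * r2 + (y * r2 - r1) := by ring
      rw [e]
      refine Valuation.map_add_lt v ?_ h3
      rw [map_mul, h2, mul_one]
      exact hy'
    · obtain ⟨r1, hr1, r2, hr2, h1, h2, h3⟩ := hy
      obtain ⟨r1', hr1', r2', hr2', h1', h2', h3'⟩ := hy'
      have e : (y + y') * (r2 * r2') - (r1 * r2' + r1' * r2) =
          (y * r2 - r1) * r2' + (y' * r2' - r1') * r2 := by ring
      have hsm : v ((y + y') * (r2 * r2') - (r1 * r2' + r1' * r2)) < 1 := by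
        rw [e]
        refine Valuation.map_add_lt v ?_ ?_
        · rw [map_mul, h2', mul_one]; exact h3
        · rw [map_mul, h2, mul_one]; exact h3'
      have hn : v (r1 * r2' + r1' * r2) ≤ 1 :=
        Valuation.map_add_le v (by rw [map_mul, h1, h2', one_mul])
          (by rw [map_mul, h1', h2, one_mul])
      rcases lt_or_eq_of_le hn with hlt | heq
      · left
        have : (y + y') * (r2 * r2') =
            ((y + y') * (r2 * r2') - (r1 * r2' + r1' * r2)) + (r1 * r2' + r1' * r2) := by ring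
        have h4 : v ((y + y') * (r2 * r2')) < 1 := by
          rw [this]
          exact Valuation.map_add_lt v hsm hlt
        rwa [map_mul, map_mul v r2 r2', h2, h2', one_mul, mul_one] at h4
      · right
        exact ⟨r1 * r2' + r1' * r2, S.add_mem (S.mul_mem hr1 hr2') (S.mul_mem hr1' hr2), r2 * r2',
          S.mul_mem hr2 hr2', heq, by rw [map_mul, h2, h2', one_mul], hsm⟩
  neg_mem' := by
    rintro y (hy | hy)
    · exact Or.inl (by rwa [Valuation.map_neg])
    · obtain ⟨r1, hr1, r2, hr2, h1, h2, h3⟩ := hy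
      refine Or.inr ⟨-r1, S.neg_mem hr1, r2, hr2, by rwa [Valuation.map_neg], h2, ?_⟩
      have e : -y * r2 - -r1 = -(y * r2 - r1) := by ring
      rwa [e, Valuation.map_neg]
  mul_mem' := by
    rintro y y' (hy | hy) (hy' | hy')
    · left
      rw [map_mul]
      exact mul_lt_one_of_nonneg_of_lt_one_left zero_le hy hy'.le
    · left
      rw [map_mul, hy'.val_eq_one, mul_one]
      exact hy
    · left
      rw [map_mul, hy.val_eq_one, one_mul]
      exact hy'
    · exact Or.inr (hy.mul hy')

theorem mem_approxRing_iff {v : Valuation E Γ₀} {S : Subring E} {y : E} :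
    y ∈ approxRing v S ↔ v y < 1 ∨ IsApprox v S y := Iff.rfl

theorem isApprox_of_mem_approxRing {v : Valuation E Γ₀} {S : Subring E} {y : E}
    (hy : y ∈ approxRing v S) (h1 : v y = 1) : IsApprox v S y := by
  rcases hy with h | h
  · rw [h1] at h
    exact absurd h (lt_irrefl _)
  · exact h

theorem le_approxRing {v : Valuation E Γ₀} {S : Subring E} (hS : ∀ r ∈ S, v r ≤ 1) :
    S ≤ approxRing v S := by
  intro r hr
  rcases lt_or_eq_of_le (hS r hr) with h | h
  · exact Or.inl h
  · exact Or.inr ⟨r, hr, 1, S.one_mem, h, map_one v, by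
      rw [mul_one, sub_self, map_zero]; exact zero_lt_one⟩

/-- a quotient of two approximable units is approximable -/
theorem isApprox_of_mul_eq {v : Valuation E Γ₀} {S : Subring E} {x Y X' : E}
    (hY : IsApprox v S Y) (hX' : IsApprox v S X') (h : x * Y = X') : IsApprox v S x := by
  have hY1 := hY.val_eq_one
  have hX1 := hX'.val_eq_one
  have hx1 : v x = 1 := by
    have := congrArg v h
    rwa [map_mul, hY1, hX1, mul_one] at this
  obtain ⟨s1, hs1, s2, hs2, k1, k2, k3⟩ := hY
  obtain ⟨t1, ht1, t2, ht2, l1, l2, l3⟩ := hX'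
  refine ⟨t1 * s2, S.mul_mem ht1 hs2, t2 * s1, S.mul_mem ht2 hs1, by
    rw [map_mul, l1, k2, one_mul], by rw [map_mul, l2, k1, one_mul], ?_⟩
  have e : x * (t2 * s1) - t1 * s2 = (X' * t2 - t1) * s2 - x * t2 * (Y * s2 - s1) := by
    rw [← h]
    ring
  rw [e]
  refine Valuation.map_sub_lt v ?_ ?_
  · rw [map_mul, k2, mul_one]; exact l3
  · rw [map_mul, map_mul v x t2, hx1, l2, one_mul, one_mul]; exact k3

section Lift

variable {F : Type*} [Field F] {G : Type*} [Group G] [Fintype G] [MulSemiringAction G E]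

/-- **`dense` upstairs.** -/
theorem dense_lift (ιF : F →+* E) (hfix : ∀ q : E, (∀ g : G, g • q = q) → ∃ y : F, ιF y = q)
    (v : Valuation E Γ₀) (S : Subring E) (hS : ∀ r ∈ S, v r ≤ 1) (R₀ : Subring F)
    (hR₀S : ∀ r ∈ R₀, ιF r ∈ S)
    (hdense₀ : ∀ y : F, v (ιF y) = 1 → ∃ r1 ∈ R₀, ∃ r2 ∈ R₀, v (ιF r1) = 1 ∧ v (ιF r2) = 1 ∧
      v (ιF (y * r2 - r1)) < 1)
    (θ : E) (hθS : θ ∈ S) (hθW : ∀ g : G, v (g • θ) ≤ 1)
    (hθd : ∀ g h : G, g ≠ h → v (g • θ - h • θ) = 1) (x : E) (hx : v x = 1) :
    ∃ r1 ∈ S, ∃ r2 ∈ S, v r1 = 1 ∧ v r2 = 1 ∧ v (x * r2 - r1) < 1 := by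
  -- fixed integral elements are approximable
  have hfixmem : ∀ q : E, (∀ g : G, g • q = q) → v q ≤ 1 → q ∈ approxRing v S := by
    intro q hq hq1
    rcases lt_or_eq_of_le hq1 with h | h
    · exact Or.inl h
    · obtain ⟨y, rfl⟩ := hfix q hq
      obtain ⟨r1, hr1, r2, hr2, h1, h2, h3⟩ := hdense₀ y h
      refine Or.inr ⟨ιF r1, hR₀S r1 hr1, ιF r2, hR₀S r2 hr2, h1, h2, ?_⟩
      rwa [map_sub, map_mul] at h3
  have hθmem : θ ∈ approxRing v S := le_approxRing hS hθS
  have hpoly : ∀ q : ℕ → E, (∀ i, ∀ g : G, g • q i = q i) → (∀ i, v (q i) ≤ 1) →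
      ∑ i ∈ Finset.range (Fintype.card G), q i * θ ^ i ∈ approxRing v S := by
    intro q hq hq1
    exact Subring.sum_mem _ fun i _ =>
      Subring.mul_mem _ (hfixmem (q i) (hq i) (hq1 i)) (Subring.pow_mem _ hθmem i)
  obtain ⟨q1, q2, h1fix, h1int, h2fix, h2int, heq, hY1⟩ :=
    exists_fixed_coeffs (G := G) v θ hθW hθd x hx.le
  have hX1 : v (∑ i ∈ Finset.range (Fintype.card G), q1 i * θ ^ i) = 1 := by
    rw [← heq, map_mul, hx, hY1, one_mul]
  exact isApprox_of_mul_eq (isApprox_of_mem_approxRing (hpoly q2 h2fix h2int) hY1)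
    (isApprox_of_mem_approxRing (hpoly q1 h1fix h1int) hX1) heq

end Lift

end Fermat.Agent.S40x.R2.Slope
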