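import Mathlib

/-!
# P-S44, block C3, leaf C3-SLOPE (helper41): existence of the valuation ring `W*` upstairs

Mathlib only.  The instance layer of C3-SLOPE needs a valuation subring `W*` of the cover field
`E = F_L` which **dominates** the Gauss valuation ring `V = valInfty` of `F` and **contains** the
etale lift `R*_s` of the node ring (`R*_s` is the localisation of `R_s[θ₀]` at a maximal ideal
chosen by C3-ET; `W*` has to be on the right component of the special fibre of `X_L`).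

* `exists_valuationSubring_of_disjoint`: `B` a subring of a field, `I` an ideal and `T` a
  multiplicative subset of `B` with `I ∩ T = ∅`: there is a valuation subring containing `B`, in
  which the elements of `I` are non-units and the elements of `T` are units.
* `exists_eq_mul_of_eval_eq` (power basis): `R_s ⊆ V₀` subrings of `E`, `𝔪` a proper ideal of `V₀`
  with `𝔪 ∩ R_s ⊆ z R_s`, `θ₀` a root of a monic `Q ∈ R_s[T]` whose powers `θ₀^i`, `i < deg Q`, are
  linearly independent over `V₀`: `𝔪 V₀[θ₀] ∩ R_s[θ₀] ⊆ z R_s[θ₀]`.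
* `exists_valuationSubring_dominating`: hence a valuation subring `W ⊇ V₀`, `𝔪 ⊆ nonunits W`,
  `W ⊇ R*` for every subring `R*` whose elements are fractions `a(θ₀)/t(θ₀)`, `a, t ∈ R_s[T]`,
  `t(θ₀)` a unit of `R*`, provided `z` is not a unit of `R*`.
-/

set_option autoImplicit false

namespace Fermat.Agent.S40x.R2.Slope

open IsLocalRing Polynomial

theorem exists_valuationSubring_of_disjoint {K : Type*} [Field K] (B : Subring K) (I : Ideal B)
    (T : Submonoid B) (h : Disjoint (I : Set B) (T : Set B)) :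
    ∃ W : ValuationSubring K, B ≤ W.toSubring ∧ (∀ x ∈ I, (x : K) ∈ W.nonunits) ∧
      ∀ t ∈ T, ((t : K))⁻¹ ∈ W := by
  obtain ⟨P, hP, hIP, hPT⟩ := Ideal.exists_le_prime_disjoint I T h
  obtain ⟨V, hV⟩ := (LocalSubring.ofPrime B P).exists_le_valuationSubring
  refine ⟨V, (LocalSubring.le_ofPrime ..).trans hV.1, ?_, ?_⟩
  · intro x hx
    have hsub : B.subtype '' P ⊆ V.nonunits := by
      rw [← V.image_maximalIdeal]
      refine .trans ?_ (Set.image_mono <| ((local_hom_TFAE _).out 0 2).mp hV.2)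
      rw [← IsLocalization.AtPrime.map_eq_maximalIdeal P, Ideal.map_map]
      rintro _ ⟨a, ha, rfl⟩
      exact ⟨_, Ideal.mem_map_of_mem _ ha, rfl⟩
    exact hsub ⟨x, hIP hx, rfl⟩
  · intro t ht
    have htP : t ∈ P.primeCompl := by
      intro htP
      exact Set.disjoint_left.mp hPT htP ht
    have hu : IsUnit (algebraMap B (LocalSubring.ofPrime B P).toSubring t) :=
      IsLocalization.map_units (M := P.primeCompl) _ ⟨t, htP⟩
    obtain ⟨y, hy⟩ := isUnit_iff_exists_inv.mp hu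
    have hy' : (t : K) * (y : K) = 1 := congrArg Subtype.val hy
    have : ((t : K))⁻¹ = (y : K) := inv_eq_of_mul_eq_one_right hy'
    rw [this]
    exact hV.1 y.2

variable {E : Type*} [Field E]

/-- **power basis**: `𝔪 V₀[θ₀] ∩ R_s[θ₀] ⊆ z R_s[θ₀]`. -/
theorem exists_eq_mul_of_eval_eq (V₀ Rs : Subring E) (hRV : Rs ≤ V₀) (m : Ideal V₀) (hm : m ≠ ⊤)
    (z : E) (hmz : ∀ r (hr : r ∈ Rs), (⟨r, hRV hr⟩ : V₀) ∈ m → ∃ r' ∈ Rs, r = z * r')
    (θ₀ : E) (Q : Polynomial Rs) (hQ : Q.Monic) (hQθ : Q.eval₂ Rs.subtype θ₀ = 0)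
    (hindep : ∀ A : Polynomial V₀, A.degree < Q.natDegree → A.eval₂ V₀.subtype θ₀ = 0 → A = 0)
    (A : Polynomial V₀) (hA : ∀ i, A.coeff i ∈ m) (A0 : Polynomial Rs)
    (h : A.eval₂ V₀.subtype θ₀ = A0.eval₂ Rs.subtype θ₀) :
    ∃ S0 : Polynomial Rs, A0.eval₂ Rs.subtype θ₀ = z * S0.eval₂ Rs.subtype θ₀ := by
  classical
  set j : Rs →+* V₀ := Subring.inclusion hRV with hj
  have hjc : V₀.subtype.comp j = Rs.subtype := rfl
  have : Nontrivial (V₀ ⧸ m) := Ideal.Quotient.nontrivial_iff.mpr hm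
  set QV := Q.map j with hQVdef
  have hQV : QV.Monic := hQ.map j
  have hQVdeg : QV.natDegree = Q.natDegree := hQ.natDegree_map j
  have hQVθ : QV.eval₂ V₀.subtype θ₀ = 0 := by
    rw [hQVdef, eval₂_map, hjc]
    exact hQθ
  set D := A - A0.map j with hD
  have hDθ : D.eval₂ V₀.subtype θ₀ = 0 := by
    rw [hD, eval₂_sub, eval₂_map, hjc, h, sub_self]
  have hmod : D %ₘ QV = 0 := by
    apply hindep
    · have := degree_modByMonic_lt D hQV
      rwa [degree_eq_natDegree hQV.ne_zero, hQVdeg] at this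
    · have h1 := modByMonic_add_div D QV
      have h2 := congrArg (eval₂ V₀.subtype θ₀) h1
      rw [eval₂_add, eval₂_mul, hQVθ, zero_mul, add_zero, hDθ] at h2
      exact h2
  have hdvd : QV ∣ D := (modByMonic_eq_zero_iff_dvd hQV).mp hmod
  set π := Ideal.Quotient.mk m with hπ
  have hAπ : A.map π = 0 := by
    ext i
    rw [coeff_map, coeff_zero]
    exact Ideal.Quotient.eq_zero_iff_mem.mpr (hA i)
  set f : Rs →+* V₀ ⧸ m := π.comp j with hf
  set R0 := A0 %ₘ Q with hR0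
  have hdiv0 := modByMonic_add_div A0 Q
  have hfQ : Q.map f = QV.map π := by rw [hQVdef, Polynomial.map_map]
  have hdvdA0 : Q.map f ∣ A0.map f := by
    have h1 : A0.map f = - D.map π := by
      have : (A0.map j).map π = A0.map f := by rw [Polynomial.map_map]
      rw [← this, hD, Polynomial.map_sub, hAπ, zero_sub, neg_neg]
    rw [h1, hfQ]
    exact (dvd_neg).mpr (Polynomial.map_dvd π hdvd)
  have hdvdR0 : Q.map f ∣ R0.map f := by
    have h1 : R0.map f = A0.map f - Q.map f * (A0 /ₘ Q).map f := by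
      rw [← Polynomial.map_mul, ← Polynomial.map_sub]
      congr 1
      rw [eq_sub_iff_add_eq]
      exact hdiv0
    rw [h1]
    exact dvd_sub hdvdA0 (dvd_mul_right _ _)
  have hR0f : R0.map f = 0 := by
    by_contra hne
    refine (hQ.map f).not_dvd_of_degree_lt hne ?_ hdvdR0
    calc (R0.map f).degree ≤ R0.degree := degree_map_le
      _ < Q.degree := degree_modByMonic_lt A0 hQ
      _ = (Q.map f).degree := (hQ.degree_map f).symm
  have hcoeff : ∀ i, ∃ r' ∈ Rs, ((R0.coeff i : Rs) : E) = z * r' := by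
    intro i
    have h1 : f (R0.coeff i) = 0 := by
      have := congrArg (fun q => q.coeff i) hR0f
      simpa only [coeff_map, coeff_zero] using this
    have h2 : j (R0.coeff i) ∈ m := Ideal.Quotient.eq_zero_iff_mem.mp h1
    exact hmz _ (R0.coeff i).2 h2
  choose r' hr'mem hr' using hcoeff
  have hA0R0 : A0.eval₂ Rs.subtype θ₀ = R0.eval₂ Rs.subtype θ₀ := by
    have h2 := congrArg (eval₂ Rs.subtype θ₀) hdiv0
    rw [eval₂_add, eval₂_mul, hQθ, zero_mul, add_zero] at h2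
    exact h2.symm
  refine ⟨∑ i ∈ Finset.range (R0.natDegree + 1), C (⟨r' i, hr'mem i⟩ : Rs) * X ^ i, ?_⟩
  rw [hA0R0, eval₂_eq_sum_range, eval₂_finsetSum, Finset.mul_sum]
  refine Finset.sum_congr rfl fun i _ => ?_
  rw [eval₂_mul, eval₂_C, eval₂_pow, eval₂_X]
  show ((R0.coeff i : Rs) : E) * θ₀ ^ i = z * (r' i * θ₀ ^ i)
  rw [hr' i]
  ring

/-- **existence of `W*`**: a valuation subring containing `V₀`, in which the elements of `𝔪` are
non-units, and containing `R*`. -/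
theorem exists_valuationSubring_dominating (V₀ Rs : Subring E) (hRV : Rs ≤ V₀) (m : Ideal V₀)
    (hm : m ≠ ⊤) (z : E)
    (hmz : ∀ r (hr : r ∈ Rs), (⟨r, hRV hr⟩ : V₀) ∈ m → ∃ r' ∈ Rs, r = z * r')
    (θ₀ : E) (Q : Polynomial Rs) (hQ : Q.Monic) (hQθ : Q.eval₂ Rs.subtype θ₀ = 0)
    (hindep : ∀ A : Polynomial V₀, A.degree < Q.natDegree → A.eval₂ V₀.subtype θ₀ = 0 → A = 0)
    (Rstar : Subring E)
    (hfrac : ∀ x ∈ Rstar, ∃ a t : Polynomial Rs, (t.eval₂ Rs.subtype θ₀)⁻¹ ∈ Rstar ∧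
      t.eval₂ Rs.subtype θ₀ ≠ 0 ∧ x * t.eval₂ Rs.subtype θ₀ = a.eval₂ Rs.subtype θ₀)
    (hpoly : ∀ a : Polynomial Rs, a.eval₂ Rs.subtype θ₀ ∈ Rstar) (hz : z⁻¹ ∉ Rstar) :
    ∃ W : ValuationSubring E, V₀ ≤ W.toSubring ∧ (∀ x ∈ m, (x : E) ∈ W.nonunits) ∧
      Rstar ≤ W.toSubring := by
  classical
  set j : Rs →+* V₀ := Subring.inclusion hRV with hj
  have hjc : V₀.subtype.comp j = Rs.subtype := rfl
  set φ : Polynomial V₀ →+* E := eval₂RingHom V₀.subtype θ₀ with hφ
  set B : Subring E := φ.range with hB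
  set φ' : Polynomial V₀ →+* B := φ.rangeRestrict with hφ'
  have hφ'surj : Function.Surjective φ' := φ.rangeRestrict_surjective
  set I : Ideal B := Ideal.map φ' (Ideal.map C m) with hI
  have hRsB : ∀ a : Polynomial Rs, a.eval₂ Rs.subtype θ₀ ∈ B := by
    intro a
    refine ⟨a.map j, ?_⟩
    rw [hφ, coe_eval₂RingHom, eval₂_map, hjc]
  let T : Submonoid B :=
    { carrier := {b | (b : E) ≠ 0 ∧ ((b : E))⁻¹ ∈ Rstar ∧
        ∃ t : Polynomial Rs, t.eval₂ Rs.subtype θ₀ = (b : E)}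
      one_mem' := ⟨one_ne_zero, by
        show ((1 : E))⁻¹ ∈ Rstar
        rw [inv_one]; exact Rstar.one_mem, 1, by rw [eval₂_one]; rfl⟩
      mul_mem' := by
        rintro b b' ⟨h0, h1, t, ht⟩ ⟨h0', h1', t', ht'⟩
        refine ⟨mul_ne_zero h0 h0', ?_, t * t', ?_⟩
        · show (((b : E) * (b' : E)))⁻¹ ∈ Rstar
          rw [mul_inv]
          exact Rstar.mul_mem h1 h1'
        · rw [eval₂_mul, ht, ht']
          rfl }
  have hdisj : Disjoint (I : Set B) (T : Set B) := by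
    rw [Set.disjoint_left]
    rintro b hbI ⟨hb0, hbinv, t, ht⟩
    obtain ⟨A, hAm, hAb⟩ := (Ideal.mem_map_iff_of_surjective φ' hφ'surj).mp hbI
    have hAcoeff : ∀ i, A.coeff i ∈ m := Ideal.mem_map_C_iff.mp hAm
    have hAb' : A.eval₂ V₀.subtype θ₀ = (b : E) := by
      have := congrArg Subtype.val hAb
      exact this
    obtain ⟨S0, hS0⟩ := exists_eq_mul_of_eval_eq V₀ Rs hRV m hm z hmz θ₀ Q hQ hQθ hindep A hAcoeff
      t (by rw [hAb', ht])
    rw [ht] at hS0
    have hz0 : z ≠ 0 := by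
      rintro rfl
      rw [zero_mul] at hS0
      exact hb0 hS0
    apply hz
    have hs0 : S0.eval₂ Rs.subtype θ₀ ≠ 0 := by
      intro h0
      rw [h0, mul_zero] at hS0
      exact hb0 hS0
    have : z⁻¹ = S0.eval₂ Rs.subtype θ₀ * ((b : E))⁻¹ := by
      rw [hS0]
      field_simp
    rw [this]
    exact Rstar.mul_mem (hpoly S0) hbinv
  obtain ⟨W, hBW, hIW, hTW⟩ := exists_valuationSubring_of_disjoint B I T hdisj
  refine ⟨W, ?_, ?_, ?_⟩
  · intro x hx
    apply hBW
    refine ⟨C ⟨x, hx⟩, ?_⟩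
    rw [hφ, coe_eval₂RingHom, eval₂_C]
    rfl
  · intro x hx
    have hmem : φ' (C x) ∈ I := Ideal.mem_map_of_mem φ' (Ideal.mem_map_of_mem C hx)
    have := hIW _ hmem
    have hval : ((φ' (C x) : B) : E) = (x : E) := by
      show φ (C x) = (x : E)
      rw [hφ, coe_eval₂RingHom, eval₂_C]
      rfl
    rwa [hval] at this
  · intro x hx
    obtain ⟨a, t, htinv, ht0, hxt⟩ := hfrac x hx
    have hx' : x = a.eval₂ Rs.subtype θ₀ * (t.eval₂ Rs.subtype θ₀)⁻¹ := by
      rw [← hxt]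
      field_simp
    rw [hx']
    refine W.toSubring.mul_mem (hBW (hRsB a)) ?_
    exact hTW ⟨t.eval₂ Rs.subtype θ₀, hRsB t⟩ ⟨ht0, htinv, t, rfl⟩

end Fermat.Agent.S40x.R2.Slope
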