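import Mathlib

/-!
# P-S44, block C3, leaf C3-SLOPE (helper41): the residue field of an unramified cover

Mathlib only.  `E` a field with a valuation `v`, `G` a finite group of automorphisms of `E`,
`θ : E` such that all conjugates `g • θ` are `v`-integral and pairwise different modulo the
maximal ideal (`v (g • θ - h • θ) = 1` for `g ≠ h`).  Then

`exists_fixed_coeffs`: every `v`-integral `x` can be written `x * Q₂(θ) = Q₁(θ)` with polynomials
`Q₁, Q₂` of degree `< |G|` whose coefficients are `G`-fixed and `v`-integral, and `v (Q₂(θ)) = 1`.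

In words: the residue field of `v` is generated over the residue field of `v|_{E^G}` by the class
of `θ` — for **every** valuation ring of `E` over the given one of `E^G` (no uniqueness, no rank
condition, no completeness), covering both the split and the inert behaviour of the residue
extension.  Two ingredients:

* `exists_integral_mul` (Bourbaki, AC VI §8): for `x` integral for `v`, there is `y` with
  `v y = 1` such that `y` and `x * y` are integral for **all** conjugate valuations `v ∘ g`;
* `lagrange_fixed_coeffs`: an element all of whose conjugates are `v`-integral is `Q(θ)` with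
  `Q` of degree `< |G|` with `G`-fixed `v`-integral coefficients (Lagrange interpolation at the
  conjugates of `θ`; the interpolation polynomial is `G`-invariant by uniqueness).
-/

set_option autoImplicit false

namespace Fermat.Agent.S40x.R2.Slope

open Polynomial

variable {E : Type*} [Field E] {Γ₀ : Type*} [LinearOrderedCommGroupWithZero Γ₀]

/-! ### the Bourbaki lemma -/

/-- **Lemma A.** If `∑_{i ≤ n} a_i x^i = 0` with `v'`-integral coefficients, then for every
`k` the element `y = ∑_{i ≤ n - k} a_{k+i} x^i` and `x * y` are `v'`-integral, whatever `v' x`. -/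
theorem integral_tail (v' : Valuation E Γ₀) (a : ℕ → E) (n k : ℕ)
    (ha : ∀ i, v' (a i) ≤ 1) (x : E) (hx : ∑ i ∈ Finset.range (k + n), a i * x ^ i = 0) :
    v' (∑ i ∈ Finset.range n, a (k + i) * x ^ i) ≤ 1 ∧
      v' (x * ∑ i ∈ Finset.range n, a (k + i) * x ^ i) ≤ 1 := by
  set y := ∑ i ∈ Finset.range n, a (k + i) * x ^ i with hy
  -- the splitting `head + x^k * y = 0`
  have hsplit : ∑ i ∈ Finset.range k, a i * x ^ i + x ^ k * y = 0 := by
    rw [← hx, Finset.sum_range_add, hy, Finset.mul_sum]
    congr 1
    refine Finset.sum_congr rfl fun i _ => ?_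
    rw [pow_add]
    ring
  rcases le_or_gt (v' x) 1 with hx1 | hx1
  · have h1 : v' y ≤ 1 := by
      refine Valuation.map_sum_le v' fun i _ => ?_
      rw [map_mul, map_pow]
      exact mul_le_one' (ha _) (pow_le_one₀ zero_le hx1)
    exact ⟨h1, by rw [map_mul]; exact mul_le_one' hx1 h1⟩
  · have hx0 : x ≠ 0 := by
      rintro rfl
      rw [map_zero] at hx1
      exact not_lt.mpr zero_le hx1
    have ht : v' x⁻¹ < 1 := by
      rw [map_inv₀]
      exact inv_lt_one_of_one_lt₀ hx1
    -- `x * y = - ∑_{i < k} a_i (x⁻¹)^(k - 1 - i)`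
    rcases Nat.eq_zero_or_pos k with hk | hk
    · subst hk
      rw [Finset.sum_range_zero, zero_add, pow_zero, one_mul] at hsplit
      rw [hsplit, mul_zero, map_zero]
      exact ⟨zero_le, zero_le⟩
    · have hxy : x * y = - ∑ i ∈ Finset.range k, a i * x⁻¹ ^ (k - 1 - i) := by
        have h1 : x ^ k * y = - ∑ i ∈ Finset.range k, a i * x ^ i := by
          rw [← add_eq_zero_iff_eq_neg']
          exact hsplit
        have h2 : x * y = x⁻¹ ^ (k - 1) * (x ^ k * y) := by
          have : x ^ k = x ^ (k - 1) * x := by
            rw [← pow_succ, Nat.sub_add_cancel hk]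
          rw [this, inv_pow]
          field_simp
        rw [h2, h1, mul_neg, Finset.mul_sum]
        congr 1
        refine Finset.sum_congr rfl fun i hi => ?_
        have hi' : i ≤ k - 1 := by
          have := Finset.mem_range.mp hi
          omega
        have : x⁻¹ ^ (k - 1) = x⁻¹ ^ (k - 1 - i) * x⁻¹ ^ i := by
          rw [← pow_add, Nat.sub_add_cancel hi']
        rw [this, inv_pow x i]
        field_simp
      have h2 : v' (x * y) ≤ 1 := by
        rw [hxy, Valuation.map_neg]
        refine Valuation.map_sum_le v' fun i _ => ?_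
        rw [map_mul, map_pow]
        exact mul_le_one' (ha _) (pow_le_one₀ zero_le ht.le)
      have h3 : v' y ≤ 1 := by
        have : y = x⁻¹ * (x * y) := by field_simp
        rw [this, map_mul]
        exact mul_le_one' ht.le h2
      exact ⟨h3, h2⟩

/-- **Lemma B.** `v x ≤ 1`, `v (a k) = 1`, `v (a (k + i)) < 1` for `i > 0`:
`y = ∑_{i < n + 1} a_{k+i} x^i` is a unit. -/
theorem unit_tail (v : Valuation E Γ₀) (a : ℕ → E) (n k : ℕ) (x : E) (hx : v x ≤ 1)
    (hk : v (a k) = 1) (hlt : ∀ i, 0 < i → v (a (k + i)) < 1) :
    v (∑ i ∈ Finset.range (n + 1), a (k + i) * x ^ i) = 1 := by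
  rw [Finset.sum_range_succ', add_zero, pow_zero, mul_one]
  have h1 : v (∑ i ∈ Finset.range n, a (k + (i + 1)) * x ^ (i + 1)) < 1 := by
    refine Valuation.map_sum_lt v one_ne_zero fun i _ => ?_
    rw [map_mul, map_pow]
    calc v (a (k + (i + 1))) * v x ^ (i + 1) ≤ v (a (k + (i + 1))) * 1 :=
          mul_le_mul_right (pow_le_one₀ zero_le hx) _
      _ = v (a (k + (i + 1))) := mul_one _
      _ < 1 := hlt (i + 1) (Nat.succ_pos i)
  rw [Valuation.map_add_eq_of_lt_right v (by rw [hk]; exact h1), hk]


/-! ### conjugates -/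

section Group

variable {G : Type*} [Group G] [Fintype G] [MulSemiringAction G E]

/-- the polynomial `∏_g (X - g • x)` -/
noncomputable def conjPoly (G : Type*) [Group G] [Fintype G] [MulSemiringAction G E] (x : E) :
    E[X] := ∏ g : G, (X - C (g • x))

theorem conjPoly_monic (x : E) : (conjPoly G x).Monic :=
  monic_prod_of_monic _ _ fun g _ => monic_X_sub_C (g • x)

theorem conjPoly_eval (x : E) : (conjPoly G x).eval x = 0 := by
  rw [conjPoly, eval_prod]
  refine Finset.prod_eq_zero (Finset.mem_univ (1 : G)) ?_
  rw [one_smul, eval_sub, eval_X, eval_C, sub_self]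

theorem conjPoly_map (x : E) (h : G) :
    (conjPoly G x).map (MulSemiringAction.toRingHom G E h) = conjPoly G x := by
  rw [conjPoly, Polynomial.map_prod]
  refine Fintype.prod_equiv (Equiv.mulLeft h) _ _ fun g => ?_
  rw [Polynomial.map_sub, map_X, map_C, MulSemiringAction.toRingHom_apply, smul_smul]
  rfl

theorem smul_coeff_conjPoly (x : E) (h : G) (i : ℕ) :
    h • (conjPoly G x).coeff i = (conjPoly G x).coeff i := by
  have := congrArg (fun q => q.coeff i) (conjPoly_map (G := G) x h)
  simp only [coeff_map, MulSemiringAction.toRingHom_apply] at this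
  exact this

/-- **Bourbaki's lemma for the conjugate valuations**: for `x` integral for `v` there is a unit
`y` of `v` such that `y` and `x * y` are integral for all the valuations `v ∘ g`. -/
theorem exists_integral_mul (v : Valuation E Γ₀) (x : E) (hx : v x ≤ 1) :
    ∃ y : E, v y = 1 ∧ (∀ g : G, v (g • y) ≤ 1) ∧ ∀ g : G, v (g • (x * y)) ≤ 1 := by
  classical
  set P := conjPoly G x with hP
  set N := P.natDegree with hN
  set c : ℕ → E := fun i => P.coeff i with hc
  have hsum : ∑ i ∈ Finset.range (N + 1), c i * x ^ i = 0 := by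
    rw [← eval_eq_sum_range, hP, conjPoly_eval]
  have hcN : c N = 1 := conjPoly_monic (G := G) x
  obtain ⟨i0, hi0, hmax⟩ := Finset.exists_max_image (Finset.range (N + 1)) (fun i => v (c i))
    ⟨0, Finset.mem_range.mpr (Nat.succ_pos N)⟩
  have hM1 : 1 ≤ v (c i0) := by
    have := hmax N (Finset.mem_range.mpr (Nat.lt_succ_self N))
    simpa only [hcN, map_one] using this
  have hM0 : c i0 ≠ 0 := by
    intro h0
    rw [h0, map_zero] at hM1
    exact not_lt.mpr hM1 zero_lt_one
  have hvM0 : v (c i0) ≠ 0 := (Valuation.ne_zero_iff v).mpr hM0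
  set a : ℕ → E := fun i => c i / c i0 with ha
  have ha1 : ∀ i, v (a i) ≤ 1 := by
    intro i
    by_cases hi : i ∈ Finset.range (N + 1)
    · rw [ha]
      simp only
      rw [map_div₀]
      exact (div_le_one₀ (zero_lt_iff.mpr hvM0)).mpr (hmax i hi)
    · have : c i = 0 := by
        apply coeff_eq_zero_of_natDegree_lt
        rw [Finset.mem_range] at hi
        omega
      rw [ha]
      simp only
      rw [this, zero_div, map_zero]
      exact zero_le
  have hafix : ∀ i, ∀ g : G, g • a i = a i := by
    intro i g
    rw [ha]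
    simp only
    rw [← MulSemiringAction.toRingHom_apply, map_div₀, MulSemiringAction.toRingHom_apply,
      MulSemiringAction.toRingHom_apply, hc]
    simp only
    rw [hP, smul_coeff_conjPoly, smul_coeff_conjPoly]
  have hasum : ∑ i ∈ Finset.range (N + 1), a i * x ^ i = 0 := by
    have : ∑ i ∈ Finset.range (N + 1), a i * x ^ i =
        (∑ i ∈ Finset.range (N + 1), c i * x ^ i) / c i0 := by
      rw [Finset.sum_div]
      refine Finset.sum_congr rfl fun i _ => ?_
      rw [ha]
      ring
    rw [this, hsum, zero_div]
  have hai0 : v (a i0) = 1 := by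
    rw [ha]
    simp only
    rw [div_self hM0, map_one]
  have hi0N : i0 ≤ N := Nat.lt_succ_iff.mp (Finset.mem_range.mp hi0)
  set k := Nat.findGreatest (fun i => v (a i) = 1) N with hk
  have hkN : k ≤ N := Nat.findGreatest_le N
  have hak : v (a k) = 1 := Nat.findGreatest_spec (P := fun i => v (a i) = 1) hi0N hai0
  have hlt : ∀ i, 0 < i → v (a (k + i)) < 1 := by
    intro i hi
    by_cases hle : k + i ≤ N
    · have hne : ¬ v (a (k + i)) = 1 :=
        Nat.findGreatest_is_greatest (P := fun i => v (a i) = 1) (by omega) hle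
      exact lt_of_le_of_ne (ha1 _) hne
    · have : c (k + i) = 0 := by
        apply coeff_eq_zero_of_natDegree_lt
        omega
      rw [ha]
      simp only
      rw [this, zero_div, map_zero]
      exact zero_lt_one
  obtain ⟨n, hn⟩ : ∃ n, N = k + n := ⟨N - k, by omega⟩
  have hasum' : ∑ i ∈ Finset.range (k + (n + 1)), a i * x ^ i = 0 := by
    rw [← add_assoc, ← hn]
    exact hasum
  refine ⟨∑ i ∈ Finset.range (n + 1), a (k + i) * x ^ i, unit_tail v a n k x hx hak hlt, ?_, ?_⟩
  · intro g
    have := (integral_tail (v.comap (MulSemiringAction.toRingHom G E g)) a (n + 1) k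
      (fun i => by rw [Valuation.comap_apply, MulSemiringAction.toRingHom_apply, hafix]
                   exact ha1 i) x hasum').1
    rwa [Valuation.comap_apply, MulSemiringAction.toRingHom_apply] at this
  · intro g
    have := (integral_tail (v.comap (MulSemiringAction.toRingHom G E g)) a (n + 1) k
      (fun i => by rw [Valuation.comap_apply, MulSemiringAction.toRingHom_apply, hafix]
                   exact ha1 i) x hasum').2
    rwa [Valuation.comap_apply, MulSemiringAction.toRingHom_apply] at this

/-! ### Lagrange interpolation at the conjugates of `θ` -/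

/-- polynomials with `v`-integral coefficients -/
theorem coeff_le_one_of_mem_lifts (v : Valuation E Γ₀) {Q : E[X]}
    (hQ : Q ∈ liftsRing v.integer.subtype) (i : ℕ) : v (Q.coeff i) ≤ 1 := by
  rw [← lifts_iff_liftsRing, lifts_iff_coeff_lifts] at hQ
  obtain ⟨w, hw⟩ := hQ i
  rw [← hw]
  exact w.2

theorem C_mem_liftsRing_integer (v : Valuation E Γ₀) {w : E} (hw : v w ≤ 1) :
    C w ∈ liftsRing v.integer.subtype := by
  rw [← lifts_iff_liftsRing]
  exact C_mem_lifts v.integer.subtype ⟨w, hw⟩

theorem X_mem_liftsRing_integer (v : Valuation E Γ₀) :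
    (X : E[X]) ∈ liftsRing v.integer.subtype := by
  rw [← lifts_iff_liftsRing]
  exact X_mem_lifts _

/-- **Lagrange**: an element all of whose conjugates are `v`-integral is a polynomial in `θ` of
degree `< |G|` with `G`-fixed, `v`-integral coefficients. -/
theorem lagrange_fixed_coeffs (v : Valuation E Γ₀) (θ : E) (hθW : ∀ g : G, v (g • θ) ≤ 1)
    (hθd : ∀ g h : G, g ≠ h → v (g • θ - h • θ) = 1) (x' : E) (hx' : ∀ g : G, v (g • x') ≤ 1) :
    ∃ q : ℕ → E, (∀ i, ∀ g : G, g • q i = q i) ∧ (∀ i, v (q i) ≤ 1) ∧
      x' = ∑ i ∈ Finset.range (Fintype.card G), q i * θ ^ i := by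
  classical
  set node : G → E := fun g => g • θ with hnode
  have hinj : Set.InjOn node (Finset.univ : Finset G) := by
    intro g _ h _ hgh
    by_contra hne
    have := hθd g h hne
    rw [show g • θ = node g from rfl, show h • θ = node h from rfl, hgh, sub_self, map_zero] at this
    exact zero_ne_one this
  set Q := Lagrange.interpolate (Finset.univ : Finset G) node (fun g => g • x') with hQ
  have hdeg : Q.degree < (Fintype.card G : ℕ) := by
    have := Lagrange.degree_interpolate_lt (s := (Finset.univ : Finset G)) (v := node)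
      (fun g => g • x') hinj
    rwa [Finset.card_univ] at this
  have heval : ∀ g : G, Q.eval (node g) = g • x' := fun g =>
    Lagrange.eval_interpolate_at_node (fun g => g • x') hinj (Finset.mem_univ g)
  -- invariance
  have hinv : ∀ h : G, Q.map (MulSemiringAction.toRingHom G E h) = Q := by
    intro h
    refine Lagrange.eq_interpolate_of_eval_eq (fun g => g • x') hinj ?_ ?_
    · rw [Finset.card_univ]
      exact lt_of_le_of_lt (degree_map_le) hdeg
    · intro g _
      have h1 : node g = MulSemiringAction.toRingHom G E h (node (h⁻¹ * g)) := by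
        rw [MulSemiringAction.toRingHom_apply, hnode]
        simp only
        rw [smul_smul, mul_inv_cancel_left]
      rw [h1, eval_map_apply, heval, MulSemiringAction.toRingHom_apply, smul_smul,
        mul_inv_cancel_left]
  -- integrality of the coefficients
  have hmem : Q ∈ liftsRing v.integer.subtype := by
    rw [hQ, Lagrange.interpolate_apply]
    refine Subring.sum_mem _ fun g _ => Subring.mul_mem _ (C_mem_liftsRing_integer v (hx' g)) ?_
    rw [Lagrange.basis]
    refine Subring.prod_mem _ fun h hh => ?_
    rw [Lagrange.basisDivisor]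
    have hne : g ≠ h := fun e => (Finset.ne_of_mem_erase hh) e.symm
    refine Subring.mul_mem _ (C_mem_liftsRing_integer v ?_)
      (Subring.sub_mem _ (X_mem_liftsRing_integer v) (C_mem_liftsRing_integer v (hθW h)))
    rw [map_inv₀, hθd g h hne, inv_one]
  refine ⟨fun i => Q.coeff i, fun i g => ?_, fun i => coeff_le_one_of_mem_lifts v hmem i, ?_⟩
  · have := congrArg (fun q => q.coeff i) (hinv g)
    simp only [coeff_map, MulSemiringAction.toRingHom_apply] at this
    exact this
  · have h1 : x' = Q.eval θ := by
      have := heval 1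
      rw [hnode] at this
      simp only [one_smul] at this
      exact this.symm
    rw [h1]
    have hcard : 0 < Fintype.card G := Fintype.card_pos
    refine eval_eq_sum_range' ?_ θ
    by_cases hQ0 : Q = 0
    · rw [hQ0, natDegree_zero]
      exact hcard
    · exact (natDegree_lt_iff_degree_lt hQ0).mpr hdeg

/-- **the residue field of `v` is generated by the class of `θ`** over the residue field of the
restriction of `v` to the fixed field of `G`: every `v`-integral `x` satisfies
`x * Q₂(θ) = Q₁(θ)`, `v (Q₂(θ)) = 1`, with `Q₁`, `Q₂` of degree `< |G|` with `G`-fixed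
`v`-integral coefficients. -/
theorem exists_fixed_coeffs (v : Valuation E Γ₀) (θ : E) (hθW : ∀ g : G, v (g • θ) ≤ 1)
    (hθd : ∀ g h : G, g ≠ h → v (g • θ - h • θ) = 1) (x : E) (hx : v x ≤ 1) :
    ∃ q1 q2 : ℕ → E, (∀ i, ∀ g : G, g • q1 i = q1 i) ∧ (∀ i, v (q1 i) ≤ 1) ∧
      (∀ i, ∀ g : G, g • q2 i = q2 i) ∧ (∀ i, v (q2 i) ≤ 1) ∧
      x * ∑ i ∈ Finset.range (Fintype.card G), q2 i * θ ^ i =
        ∑ i ∈ Finset.range (Fintype.card G), q1 i * θ ^ i ∧
      v (∑ i ∈ Finset.range (Fintype.card G), q2 i * θ ^ i) = 1 := by
  obtain ⟨y, hy1, hyG, hxyG⟩ := exists_integral_mul (G := G) v x hx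
  obtain ⟨q2, h2fix, h2int, h2⟩ := lagrange_fixed_coeffs v θ hθW hθd y hyG
  obtain ⟨q1, h1fix, h1int, h1⟩ := lagrange_fixed_coeffs v θ hθW hθd (x * y) hxyG
  exact ⟨q1, q2, h1fix, h1int, h2fix, h2int, by rw [← h2, ← h1], by rw [← h2]; exact hy1⟩

end Group

end Fermat.Agent.S40x.R2.Slope
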