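import Fermat.Agent.S40x.R2.Slope.DenseLift

/-!
# P-S44, block C3, leaf C3-SLOPE (helper41): `scal` and `const` upstairs

Mathlib only.

* `exists_pair_val_eq`: a vanishing finite sum with a non-zero term has two different terms of
  the same non-zero valuation.
* `scal_lift`: `G` a finite group of automorphisms of `E` with fixed field `ιF F`; if every
  non-zero element of `F` is a constant times a unit of `v ∘ ιF` and the constants have all roots,
  then every non-zero element of `E` is a constant times a unit of `v` (the value group of `v` is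
  torsion over the one of `v ∘ ιF`, which is divisible).
* `const_lift`: hypothesis `const` of `SideDatum` upstairs from the side datum downstairs.
* `sideDatum_lift`: the side datum upstairs.
-/

set_option autoImplicit false

namespace Fermat.Agent.S40x.R2.Slope

open Polynomial

variable {E : Type*} [Field E] {Γ₀ : Type*} [LinearOrderedCommGroupWithZero Γ₀]

theorem exists_pair_val_eq (v : Valuation E Γ₀) {ι : Type*} (s : Finset ι) (t : ι → E)
    (hsum : ∑ i ∈ s, t i = 0) (hne : ∃ i ∈ s, t i ≠ 0) :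
    ∃ i ∈ s, ∃ j ∈ s, i ≠ j ∧ v (t i) = v (t j) ∧ t i ≠ 0 := by
  classical
  obtain ⟨i1, hi1, hti1⟩ := hne
  obtain ⟨i, hi, hmax⟩ := Finset.exists_max_image s (fun i => v (t i)) ⟨i1, hi1⟩
  have hvi : v (t i) ≠ 0 := by
    intro h0
    have := hmax i1 hi1
    simp only [h0] at this
    exact (Valuation.ne_zero_iff v).mpr hti1 (le_antisymm this zero_le)
  have hti : t i ≠ 0 := (Valuation.ne_zero_iff v).mp hvi
  by_contra hcon
  have hlt : ∀ j ∈ s \ {i}, v (t j) < v (t i) := by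
    intro j hj
    rw [Finset.mem_sdiff, Finset.mem_singleton] at hj
    refine lt_of_le_of_ne (hmax j hj.1) ?_
    intro he
    exact hcon ⟨i, hi, j, hj.1, Ne.symm hj.2, he.symm, hti⟩
  have := Valuation.map_sum_eq_of_lt v hi hlt
  rw [hsum, map_zero] at this
  exact hvi this.symm

section Lift

variable {L F : Type*} [Field L] [Field F] {G : Type*} [Group G] [Fintype G]
  [MulSemiringAction G E]

/-- **`scal` upstairs.** -/
theorem scal_lift (ιF : F →+* E) (ιL' : L →+* F)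
    (hfix : ∀ q : E, (∀ g : G, g • q = q) → ∃ y : F, ιF y = q) (v : Valuation E Γ₀)
    (hroot : ∀ (c : L) (n : ℕ), 0 < n → ∃ d : L, d ^ n = c)
    (hscal₀ : ∀ y : F, y ≠ 0 → ∃ c : L, c ≠ 0 ∧ v (ιF (ιL' c * y)) = 1) (x : E) (hx : x ≠ 0) :
    ∃ c : L, c ≠ 0 ∧ v (ιF (ιL' c) * x) = 1 := by
  classical
  set P := conjPoly G x with hP
  set N := P.natDegree with hN
  have hsum : ∑ i ∈ Finset.range (N + 1), P.coeff i * x ^ i = 0 := by
    rw [← eval_eq_sum_range, hP, conjPoly_eval]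
  have hcN : P.coeff N = 1 := conjPoly_monic (G := G) x
  obtain ⟨i, hi, j, hj, hij, hv, hti⟩ := exists_pair_val_eq v (Finset.range (N + 1))
    (fun i => P.coeff i * x ^ i) hsum
    ⟨N, Finset.mem_range.mpr (Nat.lt_succ_self N), by
      simp only [hcN, one_mul]; exact pow_ne_zero N hx⟩
  -- wlog `i < j`
  have hvx : v x ≠ 0 := (Valuation.ne_zero_iff v).mpr hx
  have main : ∀ i j : ℕ, i < j → v (P.coeff i * x ^ i) = v (P.coeff j * x ^ j) →
      P.coeff i * x ^ i ≠ 0 → ∃ c : L, c ≠ 0 ∧ v (ιF (ιL' c) * x) = 1 := by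
    intro i j hlt hv hti
    have hci : P.coeff i ≠ 0 := left_ne_zero_of_mul hti
    have htj : P.coeff j * x ^ j ≠ 0 := by
      rw [← Valuation.ne_zero_iff v, ← hv, Valuation.ne_zero_iff v]
      exact hti
    have hcj : P.coeff j ≠ 0 := left_ne_zero_of_mul htj
    obtain ⟨yi, hyi⟩ := hfix (P.coeff i) fun g => smul_coeff_conjPoly x g i
    obtain ⟨yj, hyj⟩ := hfix (P.coeff j) fun g => smul_coeff_conjPoly x g j
    have hyi0 : yi ≠ 0 := by
      rintro rfl
      rw [map_zero] at hyi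
      exact hci hyi.symm
    have hyj0 : yj ≠ 0 := by
      rintro rfl
      rw [map_zero] at hyj
      exact hcj hyj.symm
    obtain ⟨m, hm⟩ : ∃ m, j = i + (m + 1) := ⟨j - i - 1, by omega⟩
    -- `v x ^ (m+1) = v (c_i / c_j)`
    have hpow : v (P.coeff j / P.coeff i) * v x ^ (m + 1) = 1 := by
      rw [map_mul, map_mul, map_pow, map_pow, hm, pow_add] at hv
      rw [map_div₀]
      have h1 : v (P.coeff i) ≠ 0 := (Valuation.ne_zero_iff v).mpr hci
      have h2 : v x ^ i ≠ 0 := pow_ne_zero i hvx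
      field_simp
      rw [hm]
      calc v (P.coeff (i + (m + 1))) * v x ^ (m + 1)
          = (v (P.coeff (i + (m + 1))) * (v x ^ i * v x ^ (m + 1))) / v x ^ i := by
            field_simp
        _ = (v (P.coeff i) * v x ^ i) / v x ^ i := by rw [hv]
        _ = v (P.coeff i) := by field_simp
    obtain ⟨c, hc0, hc⟩ := hscal₀ (yi / yj) (div_ne_zero hyi0 hyj0)
    obtain ⟨d, hd⟩ := hroot c (m + 1) (Nat.succ_pos m)
    have hd0 : d ≠ 0 := by
      rintro rfl
      rw [zero_pow (Nat.succ_ne_zero m)] at hd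
      exact hc0 hd.symm
    refine ⟨d, hd0, ?_⟩
    have h3 : (v (ιF (ιL' d) * x)) ^ (m + 1) = 1 := by
      rw [map_mul, mul_pow, ← map_pow, ← map_pow, ← map_pow ιL', hd]
      rw [map_mul, map_mul, map_div₀, hyi, hyj, map_div₀] at hc
      have h1 : v (P.coeff i) ≠ 0 := (Valuation.ne_zero_iff v).mpr hci
      have h2 : v (P.coeff j) ≠ 0 := (Valuation.ne_zero_iff v).mpr hcj
      rw [map_div₀] at hpow
      calc v (ιF (ιL' c)) * v x ^ (m + 1)
          = (v (ιF (ιL' c)) * (v (P.coeff i) / v (P.coeff j))) *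
              (v (P.coeff j) / v (P.coeff i) * v x ^ (m + 1)) := by
            field_simp
        _ = 1 := by rw [hc, hpow, one_mul]
    rcases pow_eq_one_iff.mp h3 with h | h
    · exact h
    · exact absurd h (Nat.succ_ne_zero m)
  rcases lt_or_gt_of_ne hij with hlt | hgt
  · exact main i j hlt hv hti
  · refine main j i hgt hv.symm ?_
    rw [← Valuation.ne_zero_iff v, ← hv, Valuation.ne_zero_iff v]
    exact hti

/-- **`const` upstairs** from the side datum downstairs. -/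
theorem const_lift (ιF : F →+* E) (ιL' : L →+* F) (v : Valuation E Γ₀) {R₀ : Subring F}
    {o₀ : F → ℤ} (D₀ : SideDatum ιL' (v.comap ιF) R₀ o₀) (S : Subring E) (o : E → ℤ)
    (o_mul : ∀ r ∈ S, ∀ r' ∈ S, v r = 1 → v r' = 1 → o (r * r') = o r + o r')
    (o_congr : ∀ r ∈ S, ∀ r' ∈ S, v r = 1 → v (r - r') < 1 → o r = o r')
    (hR₀S : ∀ r ∈ R₀, ιF r ∈ S) (hoo : ∀ r ∈ R₀, v (ιF r) = 1 → o (ιF r) = o₀ r)
    (c : L) (hc : v (ιF (ιL' c)) = 1) (r1 : E) (hr1 : r1 ∈ S) (r2 : E) (hr2 : r2 ∈ S)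
    (h1 : v r1 = 1) (h2 : v r2 = 1) (h3 : v (ιF (ιL' c) * r2 - r1) < 1) : o r1 = o r2 := by
  obtain ⟨s1, hs1, s2, hs2, k1, k2, k3⟩ := D₀.dense (ιL' c) hc
  rw [Valuation.comap_apply] at k1 k2 k3
  have hcc : (v.comap ιF) (ιL' c) = 1 := hc
  have ho := D₀.const c hcc s1 hs1 s2 hs2 k1 k2 k3
  rw [map_sub, map_mul] at k3
  have key : v (r1 * ιF s2 - ιF s1 * r2) < 1 := by
    have e : r1 * ιF s2 - ιF s1 * r2 =
        r2 * (ιF (ιL' c) * ιF s2 - ιF s1) - (ιF (ιL' c) * r2 - r1) * ιF s2 := by ring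
    rw [e]
    refine Valuation.map_sub_lt v ?_ ?_
    · rw [map_mul, h2, one_mul]; exact k3
    · rw [map_mul, k2, mul_one]; exact h3
  have h4 := o_congr (r1 * ιF s2) (S.mul_mem hr1 (hR₀S s2 hs2)) (ιF s1 * r2)
    (S.mul_mem (hR₀S s1 hs1) hr2) (by rw [map_mul, h1, k2, one_mul]) key
  rw [o_mul r1 hr1 (ιF s2) (hR₀S s2 hs2) h1 k2, o_mul (ιF s1) (hR₀S s1 hs1) r2 hr2 k1 h2,
    hoo s1 hs1 k1, hoo s2 hs2 k2] at h4
  omega

/-- **the side datum upstairs.**  Downstairs: `(F, v ∘ ιF, R₀, o₀)`; `G` a finite group of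
automorphisms of `E` with fixed field `ιF F`; `S ⊆ E` a `v`-integral subring containing `ιF R₀`
and `θ` (conjugates integral and pairwise different modulo the maximal ideal); `o` an order
function on the units of `v` in `S` extending `o₀`; the constants have all roots. -/
theorem sideDatum_lift (ιF : F →+* E) (ιL' : L →+* F)
    (hfix : ∀ q : E, (∀ g : G, g • q = q) → ∃ y : F, ιF y = q) (v : Valuation E Γ₀)
    (hroot : ∀ (c : L) (n : ℕ), 0 < n → ∃ d : L, d ^ n = c)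
    {R₀ : Subring F} {o₀ : F → ℤ} (D₀ : SideDatum ιL' (v.comap ιF) R₀ o₀)
    (S : Subring E) (o : E → ℤ) (hS : ∀ r ∈ S, v r ≤ 1)
    (o_mul : ∀ r ∈ S, ∀ r' ∈ S, v r = 1 → v r' = 1 → o (r * r') = o r + o r')
    (o_congr : ∀ r ∈ S, ∀ r' ∈ S, v r = 1 → v (r - r') < 1 → o r = o r')
    (hR₀S : ∀ r ∈ R₀, ιF r ∈ S) (hoo : ∀ r ∈ R₀, v (ιF r) = 1 → o (ιF r) = o₀ r)
    (θ : E) (hθS : θ ∈ S) (hθW : ∀ g : G, v (g • θ) ≤ 1)
    (hθd : ∀ g h : G, g ≠ h → v (g • θ - h • θ) = 1) :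
    SideDatum (ιF.comp ιL') v S o where
  o_mul := o_mul
  o_congr := o_congr
  dense := fun x hx => dense_lift (G := G) ιF hfix v S hS R₀ hR₀S
    (fun y hy => by
      obtain ⟨r1, hr1, r2, hr2, h1, h2, h3⟩ := D₀.dense y hy
      exact ⟨r1, hr1, r2, hr2, h1, h2, h3⟩) θ hθS hθW hθd x hx
  scal := fun x hx => scal_lift (G := G) ιF ιL' hfix v hroot
    (fun y hy => by
      obtain ⟨c, hc, h⟩ := D₀.scal y hy
      exact ⟨c, hc, h⟩) x hx
  const := fun c hc r1 hr1 r2 hr2 h1 h2 h3 =>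
    const_lift ιF ιL' v D₀ S o o_mul o_congr hR₀S hoo c hc r1 hr1 r2 hr2 h1 h2 h3

/-- **C3-SLOPE, main statement.**  In the situation of `sideDatum_lift` there is a slope function
`sl*` upstairs which restricts to `o` on the units of `S` and to the given slope function `sl₀`
downstairs on `F`. -/
theorem exists_slope_lift (ιF : F →+* E) (ιL' : L →+* F)
    (hfix : ∀ q : E, (∀ g : G, g • q = q) → ∃ y : F, ιF y = q) (v : Valuation E Γ₀)
    (hroot : ∀ (c : L) (n : ℕ), 0 < n → ∃ d : L, d ^ n = c)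
    {R₀ : Subring F} {o₀ : F → ℤ} (D₀ : SideDatum ιL' (v.comap ιF) R₀ o₀)
    (S : Subring E) (o : E → ℤ) (hS : ∀ r ∈ S, v r ≤ 1)
    (o_mul : ∀ r ∈ S, ∀ r' ∈ S, v r = 1 → v r' = 1 → o (r * r') = o r + o r')
    (o_congr : ∀ r ∈ S, ∀ r' ∈ S, v r = 1 → v (r - r') < 1 → o r = o r')
    (hR₀S : ∀ r ∈ R₀, ιF r ∈ S) (hoo : ∀ r ∈ R₀, v (ιF r) = 1 → o (ιF r) = o₀ r)
    (θ : E) (hθS : θ ∈ S) (hθW : ∀ g : G, v (g • θ) ≤ 1)
    (hθd : ∀ g h : G, g ≠ h → v (g • θ - h • θ) = 1)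
    {sl₀ : F → ℤ} (hsl₀ : IsSlope ιL' (v.comap ιF) sl₀)
    (hR₀ : ∀ r ∈ R₀, v (ιF r) = 1 → sl₀ r = o₀ r) :
    ∃ sl : E → ℤ, IsSlope (ιF.comp ιL') v sl ∧ (∀ r ∈ S, v r = 1 → sl r = o r) ∧
      ∀ y : F, y ≠ 0 → sl (ιF y) = sl₀ y := by
  have D := sideDatum_lift (G := G) ιF ιL' hfix v hroot D₀ S o hS o_mul o_congr hR₀S hoo θ hθS
    hθW hθd
  obtain ⟨sl, hsl, hslR⟩ := D.exists_slope
  exact ⟨sl, hsl, hslR, fun y hy =>
    SideDatum.restrict_eq ιF ιL' (fun _ => rfl) D₀ hR₀S hoo hsl hslR hsl₀ hR₀ hy⟩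

end Lift

end Fermat.Agent.S40x.R2.Slope
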