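import Mathlib

/-!
# P-S44, block C3, leaf C3-SLOPE (helper41): abstract slope functions

Mathlib only.  `E` a field, `ιL : L →+* E` a field of constants, `v` a valuation of `E`
(in the application: the valuation of a valuation subring `W` of `E` extending the Gauss valuation
`v_∞`).  A **slope function** is a map `sl : E → ℤ` which is additive on products of non-zero
elements, kills the constants and kills the principal units `1 + 𝔪_v`, i.e. a homomorphism
`Eˣ / (Lˣ · (1 + 𝔪_v)) → ℤ`.  (Example: `f ↦ ord_P (red_v (c f))`, `c` a constant normalising `f`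
to a unit, `P` a place of the residue field of `v` trivial on the residue field of the constants.)

* `IsSlope` and its calculus (`map_one`, `map_inv`, `map_div`, `map_pow`, `map_zpow`,
  `map_const_mul`, `congr`).
* `IsSlope.modEq_of_eq`: `f' = c * f * g ^ p` implies `sl f' ≡ sl f [ZMOD p]`: the slope modulo `p`
  is an invariant of the Kummer class.
-/

set_option autoImplicit false

namespace Fermat.Agent.S40x.R2.Slope

variable {L E : Type*} [Field L] [Field E]
  {Γ₀ : Type*} [LinearOrderedCommGroupWithZero Γ₀]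

/-- a slope function of the valued field `(E, v)` with constants `L` -/
structure IsSlope (ιL : L →+* E) (v : Valuation E Γ₀) (sl : E → ℤ) : Prop where
  map_mul : ∀ {f g : E}, f ≠ 0 → g ≠ 0 → sl (f * g) = sl f + sl g
  map_const : ∀ c : L, sl (ιL c) = 0
  map_near_one : ∀ {f : E}, v (f - 1) < 1 → sl f = 0

namespace IsSlope

variable {ιL : L →+* E} {v : Valuation E Γ₀} {sl : E → ℤ}

theorem map_one (h : IsSlope ιL v sl) : sl 1 = 0 := by
  have := h.map_const 1
  rwa [_root_.map_one] at this

theorem map_inv (h : IsSlope ιL v sl) {f : E} (hf : f ≠ 0) : sl f⁻¹ = - sl f := by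
  have h1 := h.map_mul hf (inv_ne_zero hf)
  rw [mul_inv_cancel₀ hf, h.map_one] at h1
  omega

theorem map_div (h : IsSlope ιL v sl) {f g : E} (hf : f ≠ 0) (hg : g ≠ 0) :
    sl (f / g) = sl f - sl g := by
  rw [div_eq_mul_inv, h.map_mul hf (inv_ne_zero hg), h.map_inv hg]
  ring

theorem map_pow (h : IsSlope ιL v sl) {f : E} (hf : f ≠ 0) (n : ℕ) : sl (f ^ n) = n * sl f := by
  induction n with
  | zero => simp [h.map_one]
  | succ n ih =>
    rw [pow_succ, h.map_mul (pow_ne_zero n hf) hf, ih]
    push_cast
    ring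

theorem map_zpow (h : IsSlope ιL v sl) {f : E} (hf : f ≠ 0) (n : ℤ) : sl (f ^ n) = n * sl f := by
  obtain ⟨m, rfl | rfl⟩ := n.eq_nat_or_neg
  · rw [zpow_natCast, h.map_pow hf]
  · rw [zpow_neg, zpow_natCast, h.map_inv (pow_ne_zero m hf), h.map_pow hf]
    ring

theorem map_const_mul (h : IsSlope ιL v sl) {c : L} (hc : c ≠ 0) {f : E} (hf : f ≠ 0) :
    sl (ιL c * f) = sl f := by
  rw [h.map_mul ((map_ne_zero ιL).mpr hc) hf, h.map_const, zero_add]

/-- two units with the same residue class have the same slope -/
theorem congr (h : IsSlope ιL v sl) {f g : E} (hf : v f = 1) (hfg : v (f - g) < 1) :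
    sl f = sl g := by
  have hf0 : f ≠ 0 := by
    rintro rfl
    rw [map_zero] at hf
    exact zero_ne_one hf
  have hg1 : v g = 1 := by
    have : g = f - (f - g) := by ring
    rw [this, Valuation.map_sub_eq_of_lt_left v (by rw [hf]; exact hfg), hf]
  have hg0 : g ≠ 0 := by
    rintro rfl
    rw [map_zero] at hg1
    exact zero_ne_one hg1
  have hq : v (f / g - 1) < 1 := by
    have : f / g - 1 = (f - g) / g := by field_simp
    rw [this, map_div₀, hg1, div_one]
    exact hfg
  have := h.map_near_one hq
  rw [h.map_div hf0 hg0] at this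
  omega

/-- **the slope modulo `p` is an invariant of the Kummer class**: `f' = c f g^p`. -/
theorem modEq_of_eq (h : IsSlope ιL v sl) {p : ℕ} {c : L} (hc : c ≠ 0) {f f' g : E} (hf : f ≠ 0)
    (hg : g ≠ 0) (he : f' = ιL c * f * g ^ p) : sl f' ≡ sl f [ZMOD p] := by
  rw [he, h.map_mul (mul_ne_zero ((map_ne_zero ιL).mpr hc) hf) (pow_ne_zero p hg),
    h.map_const_mul hc hf, h.map_pow hg]
  exact Int.modEq_iff_dvd.mpr ⟨-sl g, by ring⟩

/-- the restriction of a slope function along a field embedding is a slope function -/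
theorem comp (h : IsSlope ιL v sl) {F : Type*} [Field F] (ιF : F →+* E) (ιL' : L →+* F)
    (hι : ∀ c, ιF (ιL' c) = ιL c) : IsSlope ιL' (v.comap ιF) (fun y => sl (ιF y)) where
  map_mul := fun {f g} hf hg => by
    show sl (ιF (f * g)) = sl (ιF f) + sl (ιF g)
    rw [_root_.map_mul]
    exact h.map_mul ((map_ne_zero ιF).mpr hf) ((map_ne_zero ιF).mpr hg)
  map_const := fun c => by
    show sl (ιF (ιL' c)) = 0
    rw [hι]
    exact h.map_const c
  map_near_one := fun {f} hf => by
    apply h.map_near_one
    rw [Valuation.comap_apply, map_sub, _root_.map_one] at hf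
    exact hf

end IsSlope

end Fermat.Agent.S40x.R2.Slope
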