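import Fermat.Agent.S40x.R2.Slope.SlopeAbs

/-!
# P-S44, block C3, leaf C3-SLOPE (helper41): slopes and the edge factorisation

Mathlib only.  The consumer form of the abstract edge lemma (block B2, `S40x/Edge/EdgeField`,
`exists_edge_factorisation_field`: `f = ε u^A u'^B (g1/g2)^p` in the fraction field of a regular
node ring `R`, `A = ord_u f`, `B = ord_{u'} f`) for a slope function `sl` with
`sl (unit of R) = 0`, `sl u' = 1`, `sl u = -1` (`u u' = p Ψ`, `Ψ` a unit):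

`slope_edge`: `sl f ≡ B - A [ZMOD p]`;  `slope_smooth`: `f = ε π₀^A (g1/g2)^p`, `sl π₀ = 0`
implies `sl f ≡ 0 [ZMOD p]` (smooth points, form (E0)).
-/

set_option autoImplicit false

namespace Fermat.Agent.S40x.R2.Slope

variable {L E : Type*} [Field L] [Field E]
  {Γ₀ : Type*} [LinearOrderedCommGroupWithZero Γ₀]
  {ιL : L →+* E} {v : Valuation E Γ₀} {sl : E → ℤ}

/-- `u u' = c Ψ` with `c` a constant, `sl Ψ = 0`, `sl u' = 1`: `sl u = -1` -/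
theorem slope_node_elt (h : IsSlope ιL v sl) {u u' Ψ : E} {c : L} (hc : c ≠ 0) (hΨ0 : Ψ ≠ 0)
    (hu : u ≠ 0) (hu' : u' ≠ 0) (he : u * u' = ιL c * Ψ) (hΨ : sl Ψ = 0) (h1 : sl u' = 1) :
    sl u = -1 := by
  have := congrArg sl he
  rw [h.map_mul hu hu', h.map_const_mul hc hΨ0, hΨ, h1] at this
  omega

/-- **(E), slope form**: `f = ε u^A u'^B (g1/g2)^p` implies `sl f ≡ B - A [ZMOD p]`. -/
theorem slope_edge (h : IsSlope ιL v sl) {p : ℕ} {ε u u' g1 g2 f : E} {A B : ℤ}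
    (hε0 : ε ≠ 0) (hu0 : u ≠ 0) (hu'0 : u' ≠ 0) (hg1 : g1 ≠ 0) (hg2 : g2 ≠ 0)
    (hε : sl ε = 0) (hu : sl u = -1) (hu' : sl u' = 1)
    (hf : f = ε * u ^ A * u' ^ B * (g1 / g2) ^ p) : sl f ≡ B - A [ZMOD p] := by
  have hg : g1 / g2 ≠ 0 := div_ne_zero hg1 hg2
  rw [hf, h.map_mul (mul_ne_zero (mul_ne_zero hε0 (zpow_ne_zero A hu0)) (zpow_ne_zero B hu'0))
    (pow_ne_zero p hg), h.map_mul (mul_ne_zero hε0 (zpow_ne_zero A hu0)) (zpow_ne_zero B hu'0),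
    h.map_mul hε0 (zpow_ne_zero A hu0), h.map_zpow hu0, h.map_zpow hu'0, h.map_pow hg, hε, hu,
    hu']
  exact Int.modEq_iff_dvd.mpr ⟨-sl (g1 / g2), by ring⟩

/-- **(E0), slope form** (smooth points): `f = ε π₀^A (g1/g2)^p`, `sl π₀ = 0`. -/
theorem slope_smooth (h : IsSlope ιL v sl) {p : ℕ} {ε π₀ g1 g2 f : E} {A : ℤ}
    (hε0 : ε ≠ 0) (hπ0 : π₀ ≠ 0) (hg1 : g1 ≠ 0) (hg2 : g2 ≠ 0)
    (hε : sl ε = 0) (hπ : sl π₀ = 0) (hf : f = ε * π₀ ^ A * (g1 / g2) ^ p) :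
    sl f ≡ 0 [ZMOD p] := by
  have hg : g1 / g2 ≠ 0 := div_ne_zero hg1 hg2
  rw [hf, h.map_mul (mul_ne_zero hε0 (zpow_ne_zero A hπ0)) (pow_ne_zero p hg),
    h.map_mul hε0 (zpow_ne_zero A hπ0), h.map_zpow hπ0, h.map_pow hg, hε, hπ]
  exact Int.modEq_iff_dvd.mpr ⟨-sl (g1 / g2), by ring⟩

/-- **assembly of one node** (C3, Step 3 at a node): `ft = c f_x g^p` with `f_x` downstairs and the
edge factorisation of `ft` upstairs: `sl f_x ≡ B - A [ZMOD p]`. -/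
theorem slope_kummer_edge (h : IsSlope ιL v sl) {p : ℕ} {c : L} (hc : c ≠ 0) {fx g ft : E}
    (hfx : fx ≠ 0) (hg : g ≠ 0) (hft : ft = ιL c * fx * g ^ p)
    {ε u u' g1 g2 : E} {A B : ℤ} (hε0 : ε ≠ 0) (hu0 : u ≠ 0) (hu'0 : u' ≠ 0) (hg1 : g1 ≠ 0)
    (hg2 : g2 ≠ 0) (hε : sl ε = 0) (hu : sl u = -1) (hu' : sl u' = 1)
    (hf : ft = ε * u ^ A * u' ^ B * (g1 / g2) ^ p) : sl fx ≡ B - A [ZMOD p] :=
  (h.modEq_of_eq hc hfx hg hft).symm.trans (slope_edge h hε0 hu0 hu'0 hg1 hg2 hε hu hu' hf)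

end Fermat.Agent.S40x.R2.Slope
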